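import Fermat.Agent.LT.Places.Hecke
import Fermat.Agent.LT.Setup.Operators
import Fermat.Agent.LT.Setup.IdealLevel

/-!
# Good places of principal levels

Principal levels are good away from their conductor, and there the operators
`doubleOp (diagIdele a)` are the Hecke operators `T_v`.
-/

set_option autoImplicit false

noncomputable section

open IsDedekindDomain NumberField WithZero Matrix
open scoped TensorProduct

namespace Fermat.Agent.LT.Places

variable {F : Type*} [Field F] [NumberField F]

/-- An integer prime to `v` is a `v`-unit. -/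
theorem valuation_natCast_eq_one {v : FinPlace F} {N : ℕ} (h : (N : 𝓞 F) ∉ v.asIdeal) :
    v.valuation F (N : F) = 1 := by
  rw [← map_natCast (algebraMap (𝓞 F) F) N, HeightOneSpectrum.valuation_eq_one_iff_notMem]
  exact h

/-- `GL₂(O_v)` lies in the principal subgroup of a level prime to `v`. -/
theorem isPrincipal_localGL {v : FinPlace F} {N : ℕ} (hN : 0 < N) (h : (N : 𝓞 F) ∉ v.asIdeal)
    {k : GL (Fin 2) (v.adicCompletion F)} (hk : k ∈ intGroup v) :
    IsPrincipal F N (localGL v k) := by
  refine (isPrincipal_iff hN).2 fun w i j => ?_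
  rcases eq_or_ne w v with rfl | hw
  · have hsub : ∀ g ∈ intGroup w, Valued.v (g.val i j -
        (1 : Matrix (Fin 2) (Fin 2) (w.adicCompletion F)) i j) ≤ w.valuation F (N : F) := by
      intro g hg
      rw [valuation_natCast_eq_one h]
      refine (Valued.v.map_sub _ _).trans (max_le (hg.1 i j) ((one_mem (intGroup w)).1 i j))
    rw [map_inv, glPlace_localGL_same]
    exact ⟨hsub k hk, hsub _ (inv_mem hk)⟩
  · rw [map_inv, glPlace_localGL_ne hw, inv_one, Units.val_one, sub_self, map_zero]
    exact ⟨zero_le, zero_le⟩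

/-- `Level.principal N` is good at the places not dividing `N`. -/
theorem isGoodAt_principal {v : FinPlace F} {N : ℕ} (hN : 0 < N) (h : (N : 𝓞 F) ∉ v.asIdeal) :
    IsGoodAt (Level.principal F N hN) v := fun k hk =>
  ⟨1, localGL v k, isPrincipal_localGL hN h hk, by simp⟩

/-- `Level.ofIdeal I` is good at the places not dividing `I`. -/
theorem isGoodAt_ofIdeal {v : FinPlace F} {I : Ideal (𝓞 F)}
    (hI : ∃ N : ℕ, 0 < N ∧ (N : 𝓞 F) ∈ I) (h : ¬ I ≤ v.asIdeal) :
    IsGoodAt (Level.ofIdeal F I hI) v := fun k hk => by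
  obtain ⟨c, hcI, hcv⟩ := SetLike.not_le_iff_exists.1 h
  have hc : v.valuation F (c : F) = 1 := by
    rw [RingOfIntegers.coe_eq_algebraMap, HeightOneSpectrum.valuation_eq_one_iff_notMem]
    exact hcv
  have hc0 : algebraMap F (v.adicCompletion F) (c : F) ≠ 0 :=
    (map_ne_zero _).2 ((Valuation.ne_zero_iff _).1 (by rw [hc]; exact one_ne_zero))
  refine ⟨1, localGL v k, ⟨?_, fun i j => ?_⟩, by simp⟩
  · exact isPrincipal_localGL one_pos (by
      rw [Nat.cast_one]; exact fun h1 => v.isPrime.ne_top ((Ideal.eq_top_iff_one _).2 h1)) hk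
  refine AddSubgroup.subset_closure ⟨c, hcI, single v ((algebraMap F (v.adicCompletion F) (c : F))⁻¹ *
    (k.val i j - (1 : Matrix (Fin 2) (Fin 2) (v.adicCompletion F)) i j)),
    single_mem_integralAdele ?_, ext_toPlace fun w => ?_⟩
  · have hc' : Valued.v (algebraMap F (v.adicCompletion F) (c : F)) = 1 :=
      (HeightOneSpectrum.valuedAdicCompletion_eq_valuation' v _).trans hc
    rw [map_mul, map_inv₀, hc', inv_one, one_mul]
    exact (Valued.v.map_sub _ _).trans (max_le (hk.1 i j) ((one_mem (intGroup v)).1 i j))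
  · rw [map_sub, ← glPlace_apply, map_mul, toPlace_finIncl]
    rcases eq_or_ne w v with rfl | hw
    · rw [glPlace_localGL_same, toPlace_single_same, mul_inv_cancel_left₀ hc0]
      by_cases hij : i = j <;> simp [hij, Matrix.one_apply]
    · rw [glPlace_localGL_ne hw, toPlace_single_ne hw, mul_zero]
      by_cases hij : i = j <;> simp [hij, Matrix.one_apply]

theorem placeVal_congr_le {N : ℕ} {a b : FinAdele F} (hb : b ∈ integralAdele F)
    (h : a = 1 + (N : FinAdele F) * b) (w : FinPlace F) :
    placeVal w (a - 1) ≤ w.valuation F (N : F) := by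
  rw [h, add_sub_cancel_left, placeVal_mul, placeVal_natCast]
  exact mul_le_of_le_one_right' (placeVal_le_one w hb)

/-- The components of an idele generating `𝔭`. -/
theorem placeVal_of_isUniformiserAt {v : FinPlace F} {N : ℕ} {a : (FinAdele F)ˣ}
    (ha : IsUniformiserAt N v.asIdeal a) :
    placeVal v (a : FinAdele F) = exp (-1 : ℤ) ∧
      ∀ w, w ≠ v → placeVal w (a : FinAdele F) = 1 := by
  have key : ∀ o : 𝓞 F, (∀ w, w.valuation F (o : F) ≤ placeVal w (a : FinAdele F)) ↔
      o ∈ v.asIdeal := fun o => by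
    rw [← ha.generates o]
    constructor
    · intro h
      refine ⟨((a⁻¹ : (FinAdele F)ˣ) : FinAdele F) * finIncl F (o : F),
        mem_integralAdele_iff.2 fun w => ?_, by rw [Units.mul_inv_cancel_left]⟩
      rw [placeVal_mul, placeVal_units_inv, placeVal_finIncl,
        inv_mul_le_one₀ (zero_lt_iff.2 (placeVal_units_ne_zero w a))]
      exact h w
    · rintro ⟨b, hb, he⟩ w
      rw [← placeVal_finIncl, he, placeVal_mul]
      exact mul_le_of_le_one_right' (placeVal_le_one w hb)
  have hle : ∀ w, placeVal w (a : FinAdele F) ≤ 1 := fun w => placeVal_le_one w ha.integral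
  have hne : ∀ w, w ≠ v → placeVal w (a : FinAdele F) = 1 := fun w hw => by
    by_contra h
    refine hw (HeightOneSpectrum.ext ((v.isMaximal.eq_of_le w.isPrime.ne_top ?_).symm))
    intro o ho
    rw [← w.valuation_lt_one_iff_mem (K := F) o]
    exact ((key o).2 ho w).trans_lt ((hle w).lt_of_ne h)
  refine ⟨le_antisymm ?_ ?_, hne⟩
  · have h1 : placeVal v (a : FinAdele F) < 1 := (hle v).lt_of_ne fun h1 => by
      refine v.isPrime.ne_top ((Ideal.eq_top_iff_one _).2 ((key 1).1 fun w => ?_))
      have hw1 : placeVal w (a : FinAdele F) = 1 :=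
        (eq_or_ne w v).elim (fun h => h ▸ h1) (hne w)
      rw [hw1]
      exact w.valuation_le_one 1
    rw [← exp_log (placeVal_units_ne_zero v a), exp_le_exp]
    rw [← exp_log (placeVal_units_ne_zero v a), ← exp_zero, exp_lt_exp] at h1
    omega
  · rw [← valuation_uniformizer v]
    refine (key _).2 ?_ v
    rw [← v.valuation_lt_one_iff_mem (K := F)]
    refine (valuation_uniformizer v).trans_lt ?_
    rw [← exp_zero, exp_lt_exp]
    omega

/-- The standard uniformiser idele is a uniformiser congruent to one modulo `N`. -/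
theorem isUniformiserAt_piUnit {v : FinPlace F} {N : ℕ} (hN : 0 < N)
    (h : (N : 𝓞 F) ∉ v.asIdeal) : IsUniformiserAt N v.asIdeal (piUnit v) := by
  refine ⟨piUnit_mem_integralAdele v, fun o => ⟨?_, fun ho => ?_⟩, ?_⟩
  · rintro ⟨b, hb, he⟩
    rw [← placeVal_finIncl_lt_one_iff, he, placeVal_mul, placeVal_piUnit_same]
    refine (mul_le_of_le_one_right' (placeVal_le_one v hb)).trans_lt ?_
    rw [← exp_zero, exp_lt_exp]; omega
  · refine ⟨((piUnit v)⁻¹ : (FinAdele F)ˣ) * finIncl F (o : F),
      mem_integralAdele_iff.2 fun w => ?_, by rw [Units.mul_inv_cancel_left]⟩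
    rw [placeVal_mul, placeVal_units_inv]
    rcases eq_or_ne w v with rfl | hw
    · rw [placeVal, placeVal, toPlace_piUnit_same, ← map_inv₀, ← map_mul]
      exact valued_piLocal_inv_mul w ((placeVal_finIncl_lt_one_iff w o).2 ho)
    · rw [placeVal_piUnit_ne hw, inv_one, one_mul]
      exact placeVal_le_one w (Reduction.finIncl_mem_of_isIntegral o)
  · refine (exists_eq_add_mul_iff hN (one_mem _)).2 fun w => ?_
    rcases eq_or_ne w v with rfl | hw
    · rw [valuation_natCast_eq_one h]
      exact placeVal_le_one w (sub_mem (piUnit_mem_integralAdele w) (one_mem _))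
    · rw [placeVal, map_sub, toPlace_piUnit_ne hw, map_one, sub_self, map_zero]
      exact zero_le

/-- The adelic `diag (π_v, 1)` as a diagonal of the uniformiser idele. -/
theorem piGL_eq_dia (v : FinPlace F) : piGL v = dia (piUnit v) :=
  gl_ext fun w => Units.ext (Matrix.ext fun i j => by
    rw [piGL]
    rcases eq_or_ne w v with rfl | hw
    · rw [glPlace_localGL_same, glPlace_apply]
      fin_cases i <;> fin_cases j <;> simp [dia, piDia, toPlace_piUnit_same]
    · rw [glPlace_localGL_ne hw, glPlace_apply]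
      fin_cases i <;> fin_cases j <;> simp [dia, toPlace_piUnit_ne hw])

/-- Any uniformiser idele congruent to one gives the same double coset. -/
theorem doubleSet_diagIdele {U : Level F} {v : FinPlace F} {a : (FinAdele F)ˣ}
    (hU : dia (a * (piUnit v)⁻¹) ∈ U.toSubgroup) :
    doubleSet U (diagIdele F a) = heckeSet U v := by
  have hmul : ∀ s t : (FinAdele F)ˣ, dia s * dia t = dia (s * t) := fun s t =>
    Units.ext (Matrix.ext fun i j => by
      fin_cases i <;> fin_cases j <;> simp [dia, Matrix.mul_apply, Fin.sum_univ_two])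
  have hd : diagIdele F a = dia (a * (piUnit v)⁻¹) * piGL v := by
    rw [piGL_eq_dia, hmul, inv_mul_cancel_right]; rfl
  ext g
  constructor
  · rintro ⟨u, hu, w, hw, rfl⟩
    exact ⟨u * dia (a * (piUnit v)⁻¹), mul_mem hu hU, w, hw, by rw [hd]; group⟩
  · rintro ⟨u, hu, w, hw, rfl⟩
    exact ⟨u * (dia (a * (piUnit v)⁻¹))⁻¹, mul_mem hu (inv_mem hU), w, hw, by rw [hd]; group⟩

/-- Two uniformiser ideles congruent to one differ by an element of the level. -/
theorem isPrincipal_dia_unit {v : FinPlace F} {N : ℕ} (hN : 0 < N)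
    (h : (N : 𝓞 F) ∉ v.asIdeal) {a : (FinAdele F)ˣ} (ha : IsUniformiserAt N v.asIdeal a) :
    IsPrincipal F N (dia (a * (piUnit v)⁻¹)) := by
  obtain ⟨hv, hne⟩ := placeVal_of_isUniformiserAt ha
  obtain ⟨b, hb, hab⟩ := ha.congr
  set u := a * (piUnit v)⁻¹ with hu
  have hone : ∀ w, placeVal w (u : FinAdele F) = 1 := fun w => by
    rw [hu, Units.val_mul, placeVal_mul, placeVal_units_inv]
    rcases eq_or_ne w v with rfl | hw
    · rw [hv, placeVal_piUnit_same, mul_inv_cancel₀ exp_ne_zero]
    · rw [hne w hw, placeVal_piUnit_ne hw, inv_one, one_mul]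
  have hsub : ∀ w, Valued.v (toPlace w (u : FinAdele F) - 1) ≤ w.valuation F (N : F) := fun w => by
    rcases eq_or_ne w v with rfl | hw
    · rw [valuation_natCast_eq_one h]
      exact (Valued.v.map_sub _ _).trans (max_le (hone w).le (le_of_eq (map_one _)))
    · have : toPlace w (u : FinAdele F) = toPlace w (a : FinAdele F) := by
        rw [hu, Units.val_mul, map_mul, toPlace_units_inv, toPlace_piUnit_ne hw, inv_one, mul_one]
      rw [this, ← map_one (toPlace w), ← map_sub]
      exact placeVal_congr_le hb hab w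
  have hinv : ∀ w, Valued.v ((toPlace w (u : FinAdele F))⁻¹ - 1) ≤
      w.valuation F (N : F) := fun w => by
    have hx : toPlace w (u : FinAdele F) ≠ 0 := toPlace_units_ne_zero w u
    rw [show (toPlace w (u : FinAdele F))⁻¹ - 1 =
      -(toPlace w (u : FinAdele F))⁻¹ * (toPlace w (u : FinAdele F) - 1) by field_simp; ring,
      map_mul, Valuation.map_neg, map_inv₀, show Valued.v (toPlace w (u : FinAdele F)) = 1 from hone w,
      inv_one, one_mul]
    exact hsub w
  refine (isPrincipal_iff hN).2 fun w i j => ?_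
  rw [glPlace_apply, glPlace_apply]
  fin_cases i <;> fin_cases j <;>
    simp [dia]
  exact ⟨hsub w, hinv w⟩

/-- `doubleOp (diagIdele a)` is the operator of a Hecke function. -/
theorem doubleOp_eq {U : Level F} {v : FinPlace F} (hU : IsGoodAt U v) {a : (FinAdele F)ˣ}
    (hset : doubleSet U (diagIdele F a) = heckeSet U v) (φ : Y U → ℂ) :
    doubleOp (diagIdele F a) φ = (heckeAt U v hU).op φ := by
  classical
  funext y
  refine finsum_congr fun b => ?_
  conv_rhs => rw [← QuotientGroup.out_eq' y.2, ← QuotientGroup.out_eq' b, HeckeFn.kernel_mk,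
    QuotientGroup.out_eq' b]
  simp only [heckeAt, hset]
  split_ifs <;> simp

/-- At a good prime of a principal level `doubleOp (diagIdele a)` is `T_v`. -/
theorem doubleOp_principal {v : FinPlace F} {N : ℕ} (hN : 0 < N) (h : (N : 𝓞 F) ∉ v.asIdeal)
    {a : (FinAdele F)ˣ} (ha : IsUniformiserAt N v.asIdeal a)
    (φ : Y (Level.principal F N hN) → ℂ) :
    doubleOp (diagIdele F a) φ =
      (heckeAt (Level.principal F N hN) v (isGoodAt_principal hN h)).op φ :=
  doubleOp_eq _ (doubleSet_diagIdele (U := Level.principal F N hN)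
    (show _ ∈ principalSubgroup F N from ⟨1, _, isPrincipal_dia_unit hN h ha, by simp⟩)) φ

/-- Eigenfunctions of `T_v` are eigenfunctions in the sense of `IsHeckeEigenAt`. -/
theorem isHeckeEigenAt_iff {v : FinPlace F} {N : ℕ} (hN : 0 < N) (h : (N : 𝓞 F) ∉ v.asIdeal)
    (φ : Y (Level.principal F N hN) → ℂ) (c : ℂ) :
    IsHeckeEigenAt N φ v.asIdeal c ↔
      (heckeAt (Level.principal F N hN) v (isGoodAt_principal hN h)).IsEigen φ c := by
  constructor
  · intro H y
    have := H (piUnit v) (isUniformiserAt_piUnit hN h) y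
    rwa [doubleOp_principal hN h (isUniformiserAt_piUnit hN h)] at this
  · intro H a ha y
    rw [doubleOp_principal hN h ha]
    exact H y

end Fermat.Agent.LT.Places
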