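import Fermat.Agent.LT.Places.Idele
import Fermat.Agent.LT.Reduction.Classes

/-!
# `GL₂` at a place inside `GL₂` of the finite adeles

The embedding `localGL`, the componentwise descriptions of `GL₂(Ô)` and of principal congruence
subgroups, and good places of a level.
-/

set_option autoImplicit false

noncomputable section

open IsDedekindDomain NumberField WithZero Matrix
open scoped TensorProduct

namespace Fermat.Agent.LT.Places

variable {F : Type*} [Field F] [NumberField F]

/-- The component at `v` of an adelic matrix. -/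
def glPlace (v : FinPlace F) : GLFin F →* GL (Fin 2) (v.adicCompletion F) :=
  Matrix.GeneralLinearGroup.map (toPlace v).toRingHom

/-- The entries of the component at `v`. -/
theorem glPlace_apply (v : FinPlace F) (g : GLFin F) (i j : Fin 2) :
    (glPlace v g).val i j = toPlace v (g.val i j) := rfl

/-- Adelic matrices are determined by their components. -/
theorem mat_ext {M N : Matrix (Fin 2) (Fin 2) (FinAdele F)}
    (h : ∀ v i j, toPlace v (M i j) = toPlace v (N i j)) : M = N :=
  Matrix.ext fun i j => ext_toPlace fun v => h v i j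

/-- Elements of adelic `GL₂` are determined by their components. -/
theorem gl_ext {g h : GLFin F} (H : ∀ v, glPlace v g = glPlace v h) : g = h :=
  Units.ext (mat_ext fun v i j => by rw [← glPlace_apply, H v, glPlace_apply])

/-- The matrix equal to `M` at `v` and to `1` elsewhere. -/
def localMat (v : FinPlace F) (M : Matrix (Fin 2) (Fin 2) (v.adicCompletion F)) :
    Matrix (Fin 2) (Fin 2) (FinAdele F) :=
  Matrix.of fun i j => (1 - idem v) * (1 : Matrix (Fin 2) (Fin 2) (FinAdele F)) i j + single v (M i j)

/-- The component at `v` of a matrix placed at `v`. -/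
theorem toPlace_localMat_same (v : FinPlace F) (M : Matrix (Fin 2) (Fin 2) (v.adicCompletion F))
    (i j : Fin 2) : toPlace v (localMat v M i j) = M i j := by
  simp only [localMat, Matrix.of_apply, map_add, map_mul, map_sub, map_one, toPlace_idem_same,
    toPlace_single_same, sub_self, zero_mul, zero_add]

/-- The other components of a matrix placed at `v` are trivial. -/
theorem toPlace_localMat_ne {v w : FinPlace F} (h : w ≠ v)
    (M : Matrix (Fin 2) (Fin 2) (v.adicCompletion F)) (i j : Fin 2) :
    toPlace w (localMat v M i j) = (1 : Matrix (Fin 2) (Fin 2) (w.adicCompletion F)) i j := by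
  simp only [localMat, Matrix.of_apply, map_add, map_mul, map_sub, map_one, toPlace_idem_ne h,
    toPlace_single_ne h, sub_zero, one_mul, add_zero]
  by_cases hij : i = j <;> simp [hij, Matrix.one_apply]

/-- `M ↦ localMat v M` as a monoid homomorphism. -/
def localMatHom (v : FinPlace F) :
    Matrix (Fin 2) (Fin 2) (v.adicCompletion F) →* Matrix (Fin 2) (Fin 2) (FinAdele F) where
  toFun := localMat v
  map_one' := mat_ext fun w i j => by
    rcases eq_or_ne w v with rfl | h
    · rw [toPlace_localMat_same]
      by_cases hij : i = j <;> simp [hij, Matrix.one_apply]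
    · rw [toPlace_localMat_ne h]
      by_cases hij : i = j <;> simp [hij, Matrix.one_apply]
  map_mul' A B := mat_ext fun w i j => by
    rcases eq_or_ne w v with rfl | h
    · simp only [Matrix.mul_apply, map_sum, map_mul, toPlace_localMat_same]
    · simp only [Matrix.mul_apply, map_sum, map_mul, toPlace_localMat_ne h]
      rw [← Matrix.mul_apply, one_mul]

/-- The embedding of `GL₂(F_v)` in `GL₂` of the finite adeles. -/
def localGL (v : FinPlace F) : GL (Fin 2) (v.adicCompletion F) →* GLFin F :=
  Units.map (localMatHom v)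

/-- The component at `v` of `localGL v k` is `k`. -/
theorem glPlace_localGL_same (v : FinPlace F) (k : GL (Fin 2) (v.adicCompletion F)) :
    glPlace v (localGL v k) = k :=
  Units.ext (Matrix.ext fun i j => toPlace_localMat_same v k.val i j)

/-- The other components of `localGL v k` are trivial. -/
theorem glPlace_localGL_ne {v w : FinPlace F} (h : w ≠ v)
    (k : GL (Fin 2) (v.adicCompletion F)) : glPlace w (localGL v k) = 1 :=
  Units.ext (Matrix.ext fun i j => toPlace_localMat_ne h k.val i j)

/-- `localGL v a` commutes with `g` when `a` commutes with the component of `g` at `v`. -/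
theorem localGL_mul_comm {v : FinPlace F} (a : GL (Fin 2) (v.adicCompletion F)) {g : GLFin F}
    (h : Commute a (glPlace v g)) : localGL v a * g = g * localGL v a := by
  refine gl_ext fun w => ?_
  rw [map_mul, map_mul]
  rcases eq_or_ne w v with rfl | hw
  · rw [glPlace_localGL_same]
    exact h.eq
  · rw [glPlace_localGL_ne hw, one_mul, mul_one]

/-- The components of a scalar adelic matrix. -/
theorem glPlace_scalarFin_apply (v : FinPlace F) (a : (FinAdele F)ˣ) (i j : Fin 2) :
    (glPlace v (scalarFin F a)).val i j = if i = j then toPlace v (a : FinAdele F) else 0 := by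
  rw [glPlace_apply]
  by_cases h : i = j <;> simp [scalarFin, h]

/-- `GL₂(O_v)`. -/
def intGroup (v : FinPlace F) : Subgroup (GL (Fin 2) (v.adicCompletion F)) where
  carrier := {g | (∀ i j, Valued.v (g.val i j) ≤ 1) ∧ Valued.v g.val.det = 1}
  one_mem' := ⟨fun i j => by by_cases h : i = j <;> simp [h], by simp⟩
  mul_mem' := by
    rintro a b ⟨ha, ha'⟩ ⟨hb, hb'⟩
    refine ⟨fun i j => ?_, by rw [Units.val_mul, Matrix.det_mul, map_mul, ha', hb', one_mul]⟩
    rw [Units.val_mul, Matrix.mul_apply]
    exact Valued.v.map_sum_le fun k _ => by rw [map_mul]; exact mul_le_one' (ha i k) (hb k j)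
  inv_mem' := by
    rintro a ⟨ha, ha'⟩
    have hval : (a⁻¹).val = a.val.det⁻¹ • a.val.adjugate := by
      rw [Matrix.coe_units_inv, Matrix.inv_def, Ring.inverse_eq_inv']
    constructor
    · intro i j
      rw [hval, Matrix.smul_apply, smul_eq_mul, map_mul, map_inv₀, ha', inv_one, one_mul,
        Matrix.adjugate_fin_two]
      fin_cases i <;> fin_cases j <;> simp [ha]
    · rw [Matrix.coe_units_inv, Matrix.det_nonsing_inv, Ring.inverse_eq_inv', map_inv₀, ha',
        inv_one]

/-- Membership in the integral group. -/
theorem mem_intGroup_iff {v : FinPlace F} {g : GL (Fin 2) (v.adicCompletion F)} :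
    g ∈ intGroup v ↔ (∀ i j, Valued.v (g.val i j) ≤ 1) ∧ Valued.v g.val.det = 1 := Iff.rfl

theorem valued_det_le_one {v : FinPlace F} {M : Matrix (Fin 2) (Fin 2) (v.adicCompletion F)}
    (h : ∀ i j, Valued.v (M i j) ≤ 1) : Valued.v M.det ≤ 1 := by
  rw [Matrix.det_fin_two]
  refine (Valued.v.map_sub _ _).trans (max_le ?_ ?_) <;> rw [map_mul] <;>
    exact mul_le_one' (h _ _) (h _ _)

/-- A matrix with integral entries and inverse lies in the integral group. -/
theorem mem_intGroup_of_inv {v : FinPlace F} {g : GL (Fin 2) (v.adicCompletion F)}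
    (h : ∀ i j, Valued.v (g.val i j) ≤ 1) (h' : ∀ i j, Valued.v ((g⁻¹).val i j) ≤ 1) :
    g ∈ intGroup v := by
  refine ⟨h, le_antisymm (valued_det_le_one h) ?_⟩
  have h1 : Valued.v g.val.det * Valued.v (g⁻¹).val.det = 1 := by
    rw [← map_mul, ← Matrix.det_mul, ← Units.val_mul, mul_inv_cancel, Units.val_one,
      Matrix.det_one, map_one]
  rw [← h1]
  exact mul_le_of_le_one_right' (valued_det_le_one h')

/-- `GL₂(Ô)` is the product of the `GL₂(O_v)`. -/
theorem intGL_iff {g : GLFin F} : Reduction.IntGL g ↔ ∀ v, glPlace v g ∈ intGroup v := by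
  constructor
  · intro hg v
    refine mem_intGroup_of_inv (fun i j => placeVal_le_one v (hg.1 i j)) fun i j => ?_
    rw [← map_inv]
    exact placeVal_le_one v (hg.2 i j)
  · intro hg
    refine ⟨fun i j => mem_integralAdele_iff.2 fun v => (hg v).1 i j, fun i j =>
      mem_integralAdele_iff.2 fun v => ?_⟩
    have := ((intGroup v).inv_mem (hg v)).1 i j
    rwa [← map_inv, glPlace_apply] at this

/-- An integral congruence, componentwise. -/
theorem exists_eq_add_mul_iff {N : ℕ} (hN : 0 < N) {x y : FinAdele F}
    (_hy : y ∈ integralAdele F) :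
    (∃ a ∈ integralAdele F, x = y + (N : FinAdele F) * a) ↔
      ∀ v, placeVal v (x - y) ≤ v.valuation F (N : F) := by
  constructor
  · rintro ⟨a, ha, rfl⟩ v
    rw [add_sub_cancel_left, placeVal_mul, placeVal_natCast]
    exact mul_le_of_le_one_right' (placeVal_le_one v ha)
  · intro h
    have hxy : x - y ∈ integralAdele F := mem_integralAdele_iff.2 fun v =>
      (h v).trans (valuation_natCast_le_one v N)
    obtain ⟨a, ha, he⟩ := exists_mul_of_placeVal_le hN hxy h
    exact ⟨a, ha, by rw [← he, add_sub_cancel]⟩

/-- The principal congruence subgroup, componentwise. -/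
theorem isPrincipal_iff {N : ℕ} (hN : 0 < N) {g : GLFin F} :
    IsPrincipal F N g ↔ ∀ v i j,
      Valued.v ((glPlace v g).val i j - (1 : Matrix (Fin 2) (Fin 2) (v.adicCompletion F)) i j) ≤
        v.valuation F (N : F) ∧
      Valued.v ((glPlace v g⁻¹).val i j - (1 : Matrix (Fin 2) (Fin 2) (v.adicCompletion F)) i j) ≤
        v.valuation F (N : F) := by
  have h1 : ∀ i j, (1 : Matrix (Fin 2) (Fin 2) (FinAdele F)) i j ∈ integralAdele F := by
    intro i j
    rw [Matrix.one_apply]
    split
    exacts [one_mem _, zero_mem _]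
  have hcomp : ∀ v (h : GLFin F) (i j : Fin 2),
      toPlace v (h.val i j - (1 : Matrix (Fin 2) (Fin 2) (FinAdele F)) i j) =
        (glPlace v h).val i j - (1 : Matrix (Fin 2) (Fin 2) (v.adicCompletion F)) i j := by
    intro v h i j
    rw [map_sub, glPlace_apply]
    by_cases hij : i = j <;> simp [hij, Matrix.one_apply]
  constructor
  · intro hg v i j
    obtain ⟨a, ha, b, hb, ea, eb⟩ := hg i j
    have e1 := (exists_eq_add_mul_iff hN (h1 i j)).1 ⟨a, ha, ea⟩ v
    have e2 := (exists_eq_add_mul_iff hN (h1 i j)).1 ⟨b, hb, eb⟩ v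
    exact ⟨by simpa only [placeVal, hcomp] using e1, by simpa only [placeVal, hcomp] using e2⟩
  · intro hg i j
    obtain ⟨a, ha, ea⟩ := (exists_eq_add_mul_iff (x := g.val i j) hN (h1 i j)).2 fun v => by
      simpa only [placeVal, hcomp] using (hg v i j).1
    obtain ⟨b, hb, eb⟩ := (exists_eq_add_mul_iff (x := (g⁻¹).val i j) hN (h1 i j)).2 fun v => by
      simpa only [placeVal, hcomp] using (hg v i j).2
    exact ⟨a, ha, b, hb, ea, eb⟩

/-- A level is good at `v` if it contains `GL₂(O_v)`. -/
def IsGoodAt (U : Level F) (v : FinPlace F) : Prop :=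
  ∀ k ∈ intGroup v, localGL v k ∈ U.toSubgroup

/-- Elements of a level are scalars times integral matrices at every place. -/
theorem exists_scalar_mul (U : Level F) {g : GLFin F} (hg : g ∈ U.toSubgroup) :
    ∃ (a : (FinAdele F)ˣ) (k : GLFin F),
      (∀ v, glPlace v k ∈ intGroup v) ∧ k ∈ U.toSubgroup ∧ g = scalarFin F a * k := by
  obtain ⟨a, k, hk, rfl⟩ := U.le_maximal g hg
  exact ⟨a, k, intGL_iff.1 (Reduction.intGL_of_isPrincipal hk),
    (U.toSubgroup.mul_mem_cancel_left (U.scalar_mem a)).1 hg, rfl⟩

end Fermat.Agent.LT.Places
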