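import Fermat.Agent.LT.Places.HeckeSetup
import Fermat.Agent.LT.Whittaker.Hecke

/-!
# The representatives of `T_v` as a coset list

At a good place the standard representatives of `U diag(π_v, 1) U` form a coset list for the
Whittaker recursion.
-/

set_option autoImplicit false

noncomputable section

open IsDedekindDomain NumberField Matrix
open scoped TensorProduct

namespace Fermat.Agent.LT.Places

variable {F : Type*} [Field F] [NumberField F] {U : Level F} {v : FinPlace F}

/-- Additive representatives of the residue field, supported at `v`. -/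
def resAdele (v : FinPlace F) (r : Residue v) : FinAdele F := single v (resLift v r)

/-- The local unipotent matrix at `v` as an adelic one. -/
theorem localGL_unip (v : FinPlace F) (b : v.adicCompletion F) :
    localGL v (unip b) = unip (single v b) := gl_ext fun w => Units.ext (Matrix.ext fun i j => by
  rcases eq_or_ne w v with rfl | hw
  · rw [glPlace_localGL_same, glPlace_apply]
    fin_cases i <;> fin_cases j <;> simp
  · rw [glPlace_localGL_ne hw, glPlace_apply]
    fin_cases i <;> fin_cases j <;> simp [toPlace_single_ne hw])

/-- The representative of index `none` at `v` is a scalar times `dia (piUnit v)⁻¹`. -/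
theorem localGL_rep_none (v : FinPlace F) :
    localGL v (rep v none) = scalarFin F (piUnit v) * dia (piUnit v)⁻¹ :=
  gl_ext fun w => Units.ext (Matrix.ext fun i j => by
    rw [map_mul]
    rcases eq_or_ne w v with rfl | hw
    · simp only [glPlace_localGL_same, Units.val_mul, Matrix.mul_apply, Fin.sum_univ_two,
        glPlace_scalarFin_apply]
      simp only [glPlace_apply]
      fin_cases i <;> fin_cases j <;>
        simp [rep, swapGL, piDia, dia, toPlace_piUnit_same]
    · simp only [glPlace_localGL_ne hw, Units.val_mul, Matrix.mul_apply, Fin.sum_univ_two,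
        glPlace_scalarFin_apply]
      simp only [glPlace_apply]
      fin_cases i <;> fin_cases j <;>
        simp [dia, toPlace_piUnit_ne hw])

/-- The standard representatives form a coset list for `diag (a, 1)`. -/
theorem isCosetList_heckeRep (hU : IsGoodAt U v) {a : (FinAdele F)ˣ}
    (ha : dia (a * (piUnit v)⁻¹) ∈ U.toSubgroup) :
    Whittaker.IsCosetList U (diagIdele F a) (Whittaker.heckeRep a (resAdele v)) := by
  have hset : doubleSet U (diagIdele F a) = heckeSet U v := doubleSet_diagIdele ha
  have hcomm : ∀ s t : (FinAdele F)ˣ, dia s * dia t = dia (t * s) := fun s t =>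
    Units.ext (Matrix.ext fun i j => by
      fin_cases i <;> fin_cases j <;> simp [dia, Matrix.mul_apply, Fin.sum_univ_two, mul_comm])
  have hinv : ∀ s : (FinAdele F)ˣ, (dia s : GLFin F)⁻¹ = dia s⁻¹ := fun s =>
    Units.ext (Matrix.ext fun i j => by fin_cases i <;> fin_cases j <;> rfl)
  have key : ∀ o, (localGL v (rep v o))⁻¹ * Whittaker.heckeRep a (resAdele v) o ∈ U.toSubgroup := by
    rintro (_ | r)
    · rw [localGL_rep_none, _root_.mul_inv_rev, hinv, inv_inv, Whittaker.heckeRep,
        mul_assoc, ← map_inv, scalarFin_comm, ← mul_assoc, hcomm,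
        show a⁻¹ * piUnit v = (a * (piUnit v)⁻¹)⁻¹ by
          rw [_root_.mul_inv_rev, inv_inv, CommGroup.mul_comm (piUnit v) a⁻¹],
        ← hinv]
      exact mul_mem (inv_mem ha) (U.scalar_mem _)
    · rw [rep, map_mul, localGL_unip, Whittaker.heckeRep, _root_.mul_inv_rev, mul_assoc,
        resAdele, inv_mul_cancel_left, show localGL v (piDia v) = dia (piUnit v) from piGL_eq_dia v,
        hinv, hcomm]
      exact ha
  refine ⟨fun o o' h => ?_, fun o => ?_, fun g hg => ?_⟩
  · refine rep_coset_injective hU ?_
    have := mul_mem (mul_mem (key o) (QuotientGroup.eq.1 h)) (inv_mem (key o'))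
    convert this using 1
    group
  · rw [hset]
    exact (mem_heckeSet_iff hU).2 ⟨o, key o⟩
  · rw [hset, mem_heckeSet_iff hU] at hg
    obtain ⟨o, ho⟩ := hg
    refine ⟨o, (QuotientGroup.eq.2 ?_).symm⟩
    have := mul_mem (inv_mem (key o)) ho
    rwa [_root_.mul_inv_rev, inv_inv, mul_assoc, mul_inv_cancel_left] at this

/-- At a good prime of a principal level. -/
theorem isCosetList_principal {N : ℕ} (hN : 0 < N) (h : (N : 𝓞 F) ∉ v.asIdeal)
    {a : (FinAdele F)ˣ} (ha : IsUniformiserAt N v.asIdeal a) :
    Whittaker.IsCosetList (Level.principal F N hN) (diagIdele F a)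
      (Whittaker.heckeRep a (resAdele v)) :=
  isCosetList_heckeRep (isGoodAt_principal hN h)
    (show _ ∈ principalSubgroup F N from ⟨1, _, isPrincipal_dia_unit hN h ha, by simp⟩)

/-- The residue field at `v` has `N(v)` elements. -/
theorem card_residue (v : FinPlace F) : Nat.card (Residue v) = Ideal.absNorm v.asIdeal := by
  rw [Ideal.absNorm_apply, Submodule.cardQuot_apply]

end Fermat.Agent.LT.Places
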