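import Fermat.Agent.LT.Places.Idele
import Mathlib.NumberTheory.RamificationInertia.Valuation

/-!
# Components under field homomorphisms

For `f : F →+* K` the induced map on finite adeles multiplies the order at `v` by the ramification
index; for an automorphism it permutes the places.
-/

set_option autoImplicit false

noncomputable section

open IsDedekindDomain NumberField WithZero
open scoped TensorProduct

namespace Fermat.Agent.LT.Places

variable {F K : Type*} [Field F] [NumberField F] [Field K] [NumberField K]

/-- The map on finite adeles induced by a field homomorphism. -/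
def finExtend (f : F →+* K) : FinAdele F →ₐ[ℤ] FinAdele K :=
  Algebra.TensorProduct.map f.toIntAlgHom (AlgHom.id ℤ Zhat)

omit [NumberField F] [NumberField K] in
/-- `finExtend` on pure tensors. -/
theorem finExtend_tmul (f : F →+* K) (a : F) (z : Zhat) : finExtend f (a ⊗ₜ z) = f a ⊗ₜ z := rfl

omit [NumberField F] [NumberField K] in
/-- `finExtend` extends the map of fields. -/
theorem finExtend_finIncl (f : F →+* K) (a : F) :
    finExtend f (finIncl F a) = finIncl K (f a) := rfl

omit [NumberField F] in
/-- `finMap` is `finExtend` for an endomorphism. -/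
theorem finMap_eq_finExtend (σ : F →+* F) : finMap σ = finExtend σ := rfl

/-- `finExtend` preserves integral adeles. -/
theorem finExtend_mem_integralAdele (f : F →+* K) {x : FinAdele F} (hx : x ∈ integralAdele F) :
    finExtend f x ∈ integralAdele K := by
  obtain ⟨y, rfl⟩ := hx
  induction y using TensorProduct.induction_on with
  | zero => simp [zero_mem]
  | tmul o z => exact tmul_mem_integralAdele (RingOfIntegers.mapRingHom f o) z
  | add a b ha hb => rw [map_add, map_add]; exact add_mem ha hb

/-- The place of `F` below a place of `K` along `f`. -/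
def comapPlace (f : F →+* K) (v : FinPlace K) : FinPlace F where
  asIdeal := v.asIdeal.comap (RingOfIntegers.mapRingHom f)
  isPrime := v.isPrime.comap _
  ne_bot h := by
    have hp : ((resPrime v : ℕ) : 𝓞 F) ∈ v.asIdeal.comap (RingOfIntegers.mapRingHom f) := by
      rw [Ideal.mem_comap, map_natCast]
      exact natCast_mem v
    rw [h, Ideal.mem_bot, Nat.cast_eq_zero] at hp
    exact (resPrime_prime v).ne_zero hp

omit [NumberField K] in
/-- Membership in the restricted place. -/
theorem mem_comapPlace {f : F →+* K} {v : FinPlace K} {o : 𝓞 F} :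
    o ∈ (comapPlace f v).asIdeal ↔ RingOfIntegers.mapRingHom f o ∈ v.asIdeal := Iff.rfl

/-- Valuations along a field homomorphism. -/
theorem exists_pow_valuation (f : F →+* K) (v : FinPlace K) :
    ∃ e : ℕ, e ≠ 0 ∧ ∀ a : F, v.valuation K (f a) = (comapPlace f v).valuation F a ^ e := by
  let _ : Algebra F K := f.toAlgebra
  have : v.asIdeal.LiesOver (comapPlace f v).asIdeal := ⟨rfl⟩
  refine ⟨_, Ideal.IsDedekindDomain.ramificationIdx'_ne_zero_of_liesOver v.asIdeal
    (comapPlace f v).ne_bot, fun a => ?_⟩
  exact (HeightOneSpectrum.valuation_liesOver K (comapPlace f v) v a).symm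

/-- Some positive integer is arbitrarily small at `v`. -/
theorem exists_natCast_lt (v : FinPlace F) {γ : ℤᵐ⁰} (hγ : γ ≠ 0) :
    ∃ N : ℕ, 0 < N ∧ v.valuation F (N : F) < γ := by
  obtain ⟨m, hm⟩ := exists_natCast_exp_lt hγ
  refine ⟨(resPrime v : ℕ) ^ m, pow_pos (resPrime_prime v).pos m, ?_⟩
  rw [Nat.cast_pow, map_pow]
  refine (pow_le_pow_left' (valuation_resPrime_le v) m).trans_lt ?_
  rwa [← exp_nsmul, nsmul_eq_mul, mul_neg_one]

/-- The absolute values of an extended adele. -/
theorem placeVal_finExtend {f : F →+* K} {v : FinPlace K} {e : ℕ} (he : e ≠ 0)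
    (hval : ∀ a : F, v.valuation K (f a) = (comapPlace f v).valuation F a ^ e) (x : FinAdele F) :
    placeVal v (finExtend f x) = placeVal (comapPlace f v) x ^ e := by
  set w := comapPlace f v with hw
  have key : ∀ N : ℕ, 0 < N → ∃ a : F,
      placeVal w (x - finIncl F a) ≤ w.valuation F (N : F) ∧
      placeVal v (finExtend f x - finIncl K (f a)) ≤ w.valuation F (N : F) ^ e := fun N hN => by
    obtain ⟨a, o, ho, rfl⟩ := Reduction.exists_finIncl_add N hN x
    refine ⟨a, ?_, ?_⟩
    · rw [add_sub_cancel_left, placeVal_mul, placeVal_natCast]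
      exact mul_le_of_le_one_right' (placeVal_le_one w ho)
    · rw [map_add, map_mul, map_natCast, finExtend_finIncl, add_sub_cancel_left, placeVal_mul,
        placeVal_natCast, ← map_natCast f N, hval]
      exact mul_le_of_le_one_right' (placeVal_le_one v (finExtend_mem_integralAdele f ho))
  obtain h0 | h0 := eq_or_ne (placeVal w x) 0
  · rw [h0, zero_pow he]
    by_contra hne
    obtain ⟨N, hN, hlt⟩ := exists_natCast_lt w hne
    obtain ⟨a, h1, h2⟩ := key N hN
    have ha : w.valuation F a ≤ w.valuation F (N : F) := by
      rw [← placeVal_finIncl, ← sub_sub_cancel x (finIncl F a)]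
      exact (placeVal_sub_le w _ _).trans (max_le (h0.trans_le zero_le) h1)
    have h3 : placeVal v (finExtend f x) ≤ w.valuation F (N : F) ^ e := by
      rw [← sub_add_cancel (finExtend f x) (finIncl K (f a))]
      refine (placeVal_add_le v _ _).trans (max_le h2 ?_)
      rw [placeVal_finIncl, hval]
      exact pow_le_pow_left' ha e
    exact (h3.trans (pow_le_of_le_one zero_le (valuation_natCast_le_one w N) he)).not_gt hlt
  · obtain ⟨N, hN, hlt⟩ := exists_natCast_lt w h0
    obtain ⟨a, h1, h2⟩ := key N hN
    have ha : w.valuation F a = placeVal w x := by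
      rw [← placeVal_finIncl, ← sub_sub_cancel x (finIncl F a), placeVal, map_sub (toPlace w),
        Valuation.map_sub_eq_of_lt_left _ (h1.trans_lt hlt)]
      rfl
    rw [← ha, ← hval, ← placeVal_finIncl]
    refine Valuation.map_eq_of_sub_lt (v := Valued.v) ?_
    rw [← map_sub (toPlace v), show Valued.v (toPlace v (finIncl K (f a))) = v.valuation K (f a) from
      placeVal_finIncl v _, hval, ha]
    exact h2.trans_lt (pow_lt_pow_left₀ hlt zero_le he)

/-- For an automorphism the valuations correspond. -/
theorem valuation_comapPlace (σ : F ≃+* F) (v : FinPlace F) (a : F) :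
    v.valuation F (σ a) = (comapPlace (σ : F →+* F) v).valuation F a := by
  obtain ⟨e, he, h⟩ := exists_pow_valuation (σ : F →+* F) v
  obtain ⟨π, hπ⟩ := v.valuation_exists_uniformizer F
  have h' := h (σ.symm π)
  rw [RingEquiv.coe_toRingHom, RingEquiv.apply_symm_apply, hπ] at h'
  set w := comapPlace (σ : F →+* F) v
  have hne : w.valuation F (σ.symm π) ≠ 0 := fun h0 => by
    rw [h0, zero_pow he] at h'; exact exp_ne_zero h'
  rw [← exp_log hne, ← exp_nsmul, exp_inj, nsmul_eq_mul] at h'
  have he1 : e = 1 := by
    have hd : (e : ℤ) ∣ 1 := ⟨-log (w.valuation F (σ.symm π)), by rw [mul_neg, ← h', neg_neg]⟩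
    exact Nat.eq_one_of_dvd_one (Int.natCast_dvd_natCast.1 hd)
  simpa [he1] using h a

/-- Components of a conjugate adele. -/
theorem placeVal_finMap (σ : F ≃+* F) (v : FinPlace F) (x : FinAdele F) :
    placeVal v (finMap (σ : F →+* F) x) = placeVal (comapPlace (σ : F →+* F) v) x := by
  rw [finMap_eq_finExtend, placeVal_finExtend one_ne_zero
    (fun a => by rw [pow_one]; exact valuation_comapPlace σ v a), pow_one]

/-- Restrictions along `σ` and `σ.symm` are inverse. -/
theorem comapPlace_comapPlace_symm (σ : F ≃+* F) (v : FinPlace F) :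
    comapPlace (σ : F →+* F) (comapPlace (σ.symm : F →+* F) v) = v := by
  refine HeightOneSpectrum.ext (Ideal.ext fun o => ?_)
  rw [mem_comapPlace, mem_comapPlace]
  have : RingOfIntegers.mapRingHom (σ.symm : F →+* F)
      (RingOfIntegers.mapRingHom (σ : F →+* F) o) = o :=
    RingOfIntegers.ext (σ.symm_apply_apply (o : F))
  rw [this]

/-- The permutation of places by an automorphism. -/
def placeEquiv (σ : F ≃+* F) : FinPlace F ≃ FinPlace F where
  toFun := comapPlace (σ : F →+* F)
  invFun := comapPlace (σ.symm : F →+* F)
  left_inv v := by simpa using comapPlace_comapPlace_symm σ.symm v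
  right_inv v := comapPlace_comapPlace_symm σ v

/-- `placeEquiv σ` is restriction along `σ`. -/
theorem placeEquiv_apply (σ : F ≃+* F) (v : FinPlace F) :
    placeEquiv σ v = comapPlace (σ : F →+* F) v := rfl

/-- The idempotents are permuted. -/
theorem finMap_idem (σ : F ≃+* F) (v : FinPlace F) :
    finMap (σ : F →+* F) (idem (comapPlace (σ : F →+* F) v)) = idem v :=
  ext_toPlace fun u => by
    have hsq : toPlace u (finMap (σ : F →+* F) (idem (comapPlace (σ : F →+* F) v))) *
        toPlace u (finMap (σ : F →+* F) (idem (comapPlace (σ : F →+* F) v))) =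
        toPlace u (finMap (σ : F →+* F) (idem (comapPlace (σ : F →+* F) v))) := by
      rw [← map_mul, ← map_mul, idem_mul_idem]
    have hv := placeVal_finMap σ u (idem (comapPlace (σ : F →+* F) v))
    rcases eq_or_ne u v with rfl | hu
    · rw [placeVal, placeVal, toPlace_idem_same, map_one] at hv
      rw [toPlace_idem_same]
      exact (mul_eq_left₀ ((Valuation.ne_zero_iff _).1 (by rw [hv]; exact one_ne_zero))).1 hsq
    · have hne : comapPlace (σ : F →+* F) u ≠ comapPlace (σ : F →+* F) v :=
        fun h => hu ((placeEquiv σ).injective h)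
      rw [placeVal, placeVal, toPlace_idem_ne hne, map_zero, Valuation.zero_iff] at hv
      rw [toPlace_idem_ne hu, hv]

end Fermat.Agent.LT.Places
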