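import Fermat.Agent.LT.Places.LocalGL
import Fermat.Agent.LT.HeckeOp
import Fermat.Agent.LT.Whittaker.Defs

/-!
# The Hecke operator at a good place

`T_v` is the indicator of `U diag(π_v, 1) U`. It has the `N v + 1` standard representatives, is
invariant under inversion, and the operators at distinct places commute.
-/

set_option autoImplicit false

noncomputable section

open IsDedekindDomain NumberField WithZero Matrix
open scoped TensorProduct

namespace Fermat.Agent.LT.Places

variable {F : Type*} [Field F] [NumberField F]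

/-- The residue field at `v`. -/
abbrev Residue (v : FinPlace F) : Type _ := 𝓞 F ⧸ v.asIdeal

/-- Residue fields are finite. -/
instance finite_residue (v : FinPlace F) : Finite (Residue v) :=
  Ring.HasFiniteQuotients.finiteQuotient v.ne_bot

/-- A lift of a residue class. -/
def resLift (v : FinPlace F) (r : Residue v) : v.adicCompletion F :=
  algebraMap F (v.adicCompletion F) ((Quotient.out r : 𝓞 F) : F)

/-- Residue representatives are integral. -/
theorem valued_resLift (v : FinPlace F) (r : Residue v) : Valued.v (resLift v r) ≤ 1 :=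
  (HeightOneSpectrum.valuedAdicCompletion_eq_valuation' v _).trans_le (v.valuation_le_one _)

/-- An integer has valuation less than one at `v` exactly when it lies in `v`. -/
theorem valued_algebraMap_lt_one (v : FinPlace F) {o : 𝓞 F} :
    Valued.v (algebraMap F (v.adicCompletion F) (o : F)) < 1 ↔ o ∈ v.asIdeal := by
  rw [show algebraMap F (v.adicCompletion F) (o : F) = toPlace v (finIncl F (o : F)) from
    (toPlace_finIncl v _).symm]
  exact placeVal_finIncl_lt_one_iff v o

/-- Every integral element is congruent to a residue representative. -/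
theorem exists_resLift_near (v : FinPlace F) {x : v.adicCompletion F} (hx : Valued.v x ≤ 1) :
    ∃ r, Valued.v (x - resLift v r) < 1 := by
  obtain ⟨o, ho⟩ := exists_integer_near v hx one_ne_zero
  refine ⟨Ideal.Quotient.mk v.asIdeal o, ?_⟩
  set o' : 𝓞 F := Quotient.out (Ideal.Quotient.mk v.asIdeal o) with ho'
  have hmem : o - o' ∈ v.asIdeal := by
    rw [← Ideal.Quotient.eq]
    exact (Quotient.out_eq _).symm
  rw [show x - resLift v (Ideal.Quotient.mk v.asIdeal o) =
    algebraMap F (v.adicCompletion F) ((o - o' : 𝓞 F) : F) -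
      (algebraMap F (v.adicCompletion F) (o : F) - x) by
      simp only [resLift, RingOfIntegers.coe_eq_algebraMap, map_sub, ho']; abel]
  exact (Valued.v.map_sub _ _).trans_lt (max_lt ((valued_algebraMap_lt_one v).2 hmem) ho)

/-- Residue representatives are pairwise incongruent. -/
theorem resLift_injective (v : FinPlace F) {r s : Residue v}
    (h : Valued.v (resLift v r - resLift v s) < 1) : r = s := by
  have h' : (Quotient.out r : 𝓞 F) - Quotient.out s ∈ v.asIdeal := by
    rw [← valued_algebraMap_lt_one]
    simpa only [resLift, RingOfIntegers.coe_eq_algebraMap, map_sub] using h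
  have := Ideal.Quotient.eq.2 h'
  rwa [Ideal.Quotient.mk_out, Ideal.Quotient.mk_out] at this

/-- Elements of the maximal ideal are divisible by the uniformiser. -/
theorem valued_piLocal_inv_mul (v : FinPlace F) {x : v.adicCompletion F} (h : Valued.v x < 1) :
    Valued.v ((piLocal v : v.adicCompletion F)⁻¹ * x) ≤ 1 := by
  rw [map_mul, map_inv₀, valued_piLocal]
  obtain h0 | h0 := eq_or_ne (Valued.v x) 0
  · simp [h0]
  · rw [← exp_log h0, ← exp_zero, exp_lt_exp] at h
    rw [← exp_log h0, ← exp_neg, ← exp_add, ← exp_zero, exp_le_exp]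
    omega

theorem lt_one_of_piLocal_inv_mul (v : FinPlace F) {x : v.adicCompletion F}
    (h : Valued.v ((piLocal v : v.adicCompletion F)⁻¹ * x) ≤ 1) : Valued.v x < 1 := by
  rw [map_mul, map_inv₀, valued_piLocal] at h
  obtain h0 | h0 := eq_or_ne (Valued.v x) 0
  · simp [h0]
  · rw [← exp_log h0, ← exp_neg, ← exp_add, ← exp_zero, exp_le_exp] at h
    rw [← exp_log h0, ← exp_zero, exp_lt_exp]
    omega

/-- The permutation matrix. -/
def swapGL (v : FinPlace F) : GL (Fin 2) (v.adicCompletion F) where
  val := !![0, 1; 1, 0]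
  inv := !![0, 1; 1, 0]
  val_inv := Matrix.ext fun i j => by fin_cases i <;> fin_cases j <;> simp [Matrix.mul_apply, Fin.sum_univ_two]
  inv_val := Matrix.ext fun i j => by fin_cases i <;> fin_cases j <;> simp [Matrix.mul_apply, Fin.sum_univ_two]

/-- The swap is integral. -/
theorem swapGL_mem (v : FinPlace F) : swapGL v ∈ intGroup v :=
  mem_intGroup_iff.2 ⟨fun i j => by fin_cases i <;> fin_cases j <;> simp [swapGL],
    by simp [swapGL, Matrix.det_fin_two]⟩

/-- Integral unipotent matrices lie in the integral group. -/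
theorem unip_mem {v : FinPlace F} {b : v.adicCompletion F} (hb : Valued.v b ≤ 1) :
    unip b ∈ intGroup v :=
  mem_intGroup_iff.2 ⟨fun i j => by fin_cases i <;> fin_cases j <;> simp [hb],
    by simp [Matrix.det_fin_two]⟩

/-- `diag (π, 1)` at `v`. -/
def piDia (v : FinPlace F) : GL (Fin 2) (v.adicCompletion F) := dia (piLocal v)

/-- The representatives of `GL₂(O_v) diag(π,1) GL₂(O_v)`. -/
def rep (v : FinPlace F) : Option (Residue v) → GL (Fin 2) (v.adicCompletion F)
  | some r => unip (resLift v r) * piDia v
  | none => swapGL v * piDia v * swapGL v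

theorem valued_det_piDia (v : FinPlace F) :
    Valued.v (piDia v).val.det = exp (-1 : ℤ) := by
  rw [piDia, show (dia (piLocal v)).val = !![(piLocal v : v.adicCompletion F), 0; 0, 1] from rfl,
    Matrix.det_fin_two_of, mul_one, mul_zero, sub_zero, valued_piLocal]

theorem valued_det_rep (v : FinPlace F) (r : Option (Residue v)) :
    Valued.v (rep v r).val.det = exp (-1 : ℤ) := by
  have hw := (swapGL_mem v).2
  cases r with
  | none => simp only [rep, Units.val_mul, Matrix.det_mul, map_mul, hw, valued_det_piDia, one_mul, mul_one]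
  | some r => simp only [rep, Units.val_mul, Matrix.det_mul, map_mul, (unip_mem (valued_resLift v r)).2,
      valued_det_piDia, one_mul]

/-- Matrices with determinant of valuation one and integral entries after a unit rescaling. -/
theorem valued_det_rep_inv_mul (v : FinPlace F) (r : Option (Residue v))
    (g : GL (Fin 2) (v.adicCompletion F)) :
    Valued.v ((rep v r)⁻¹ * g).val.det = Valued.v g.val.det * exp (1 : ℤ) := by
  rw [Units.val_mul, Matrix.det_mul, map_mul, Matrix.coe_units_inv, Matrix.det_nonsing_inv,
    Ring.inverse_eq_inv', map_inv₀, valued_det_rep, exp_neg, inv_inv, mul_comm]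

/-- Every element of `GL₂(O_v) diag(π,1)` lies in some standard coset. -/
theorem exists_rep (v : FinPlace F) {k : GL (Fin 2) (v.adicCompletion F)} (hk : k ∈ intGroup v) :
    ∃ r, (rep v r)⁻¹ * (k * piDia v) ∈ intGroup v := by
  have hdet : ∀ r, Valued.v ((rep v r)⁻¹ * (k * piDia v)).val.det = 1 := fun r => by
    rw [valued_det_rep_inv_mul, Units.val_mul, Matrix.det_mul, map_mul, hk.2, valued_det_piDia,
      one_mul, ← exp_add, neg_add_cancel, exp_zero]
  have hπ : (piLocal v : v.adicCompletion F) ≠ 0 := (piLocal v).ne_zero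
  have hπ1 : Valued.v (piLocal v : v.adicCompletion F) ≤ 1 := by
    rw [valued_piLocal, ← exp_zero, exp_le_exp]; omega
  rcases lt_or_eq_of_le (hk.1 1 1) with hd | hd
  · refine ⟨none, fun i j => ?_, hdet none⟩
    have hinv : (rep v none)⁻¹ = swapGL v * (piDia v)⁻¹ * swapGL v := by
      have : (swapGL v)⁻¹ = swapGL v := Units.ext rfl
      simp only [rep, _root_.mul_inv_rev, this, mul_assoc]
    have hmat : ((rep v none)⁻¹ * (k * piDia v)).val =
        !![k.val 0 0 * (piLocal v : v.adicCompletion F), k.val 0 1;
          k.val 1 0, (piLocal v : v.adicCompletion F)⁻¹ * k.val 1 1] := by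
      rw [hinv]
      refine Matrix.ext fun i j => ?_
      fin_cases i <;> fin_cases j <;>
        simp [swapGL, piDia, dia, Matrix.mul_apply, Fin.sum_univ_two]
      field_simp
    rw [hmat]
    fin_cases i <;> fin_cases j
    · simpa using mul_le_one' (hk.1 0 0) hπ1
    · simpa using hk.1 0 1
    · simpa using hk.1 1 0
    · simpa using valued_piLocal_inv_mul v hd
  · have hd0 : k.val 1 1 ≠ 0 := (Valuation.ne_zero_iff _).1 (by rw [hd]; exact one_ne_zero)
    obtain ⟨r, hr⟩ := exists_resLift_near v (x := k.val 0 1 / k.val 1 1)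
      (by rw [map_div₀, hd, div_one]; exact hk.1 0 1)
    refine ⟨some r, fun i j => ?_, hdet _⟩
    have hb : Valued.v (k.val 0 1 - resLift v r * k.val 1 1) < 1 := by
      rw [show k.val 0 1 - resLift v r * k.val 1 1 =
        (k.val 0 1 / k.val 1 1 - resLift v r) * k.val 1 1 by field_simp, map_mul, hd, mul_one]
      exact hr
    have hmat : ((rep v (some r))⁻¹ * (k * piDia v)).val =
        !![k.val 0 0 - resLift v r * k.val 1 0,
          (piLocal v : v.adicCompletion F)⁻¹ * (k.val 0 1 - resLift v r * k.val 1 1);
          k.val 1 0 * (piLocal v : v.adicCompletion F), k.val 1 1] := by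
      simp only [rep, _root_.mul_inv_rev]
      rw [show (unip (resLift v r))⁻¹ = unip (-resLift v r) from
        Units.ext (Matrix.ext fun i j => by fin_cases i <;> fin_cases j <;> rfl)]
      refine Matrix.ext fun i j => ?_
      fin_cases i <;> fin_cases j <;>
        simp [piDia, dia, Matrix.mul_apply, Fin.sum_univ_two] <;> field_simp <;> ring
    rw [hmat]
    fin_cases i <;> fin_cases j
    · refine (Valued.v.map_sub _ _).trans (max_le (hk.1 0 0) ?_)
      rw [map_mul]
      exact mul_le_one' (valued_resLift v r) (hk.1 1 0)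
    · simpa using valued_piLocal_inv_mul v hb
    · simpa using mul_le_one' (hk.1 1 0) hπ1
    · simpa using hk.1 1 1

/-- Distinct standard representatives give distinct cosets, also modulo scalars. -/
theorem rep_injective (v : FinPlace F) {r s : Option (Residue v)}
    (h : ∀ i j, Valued.v (((rep v r)⁻¹ * rep v s).val i j) ≤ 1) : r = s := by
  have hswap : (swapGL v)⁻¹ = swapGL v := Units.ext rfl
  have hu : ∀ b : v.adicCompletion F, (unip b)⁻¹ = unip (-b) := fun b =>
    Units.ext (Matrix.ext fun i j => by fin_cases i <;> fin_cases j <;> rfl)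
  have hπ : (piLocal v : v.adicCompletion F) ≠ 0 := (piLocal v).ne_zero
  have hbig : ¬ Valued.v (piLocal v : v.adicCompletion F)⁻¹ ≤ 1 := by
    rw [map_inv₀, valued_piLocal, ← exp_neg, ← exp_zero, exp_le_exp]; omega
  cases r with
  | none =>
    cases s with
    | none => rfl
    | some b =>
      refine absurd ?_ hbig
      convert h 1 1 using 2
      simp [rep, _root_.mul_inv_rev, piDia, dia, swapGL, Matrix.mul_apply, Fin.sum_univ_two]
  | some a =>
    cases s with
    | none =>
      refine absurd ?_ hbig
      convert h 0 0 using 2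
      simp [rep, _root_.mul_inv_rev, piDia, dia, swapGL, Matrix.mul_apply, Fin.sum_univ_two]
    | some b =>
      refine congrArg some (resLift_injective v (lt_one_of_piLocal_inv_mul v ?_)).symm
      convert h 0 1 using 2
      simp [rep, _root_.mul_inv_rev, piDia, dia, Matrix.mul_apply, Fin.sum_univ_two]
      ring

/-- `diag (π_v, 1)` in the adelic group. -/
def piGL (v : FinPlace F) : GLFin F := localGL v (piDia v)

/-- The set `U diag (π_v, 1) U`. -/
def heckeSet (U : Level F) (v : FinPlace F) : Set (GLFin F) :=
  {g | ∃ a ∈ U.toSubgroup, ∃ b ∈ U.toSubgroup, g = a * piGL v * b}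

variable {U : Level F} {v : FinPlace F}

theorem mul_mem_heckeSet {a b g : GLFin F} (ha : a ∈ U.toSubgroup) (hb : b ∈ U.toSubgroup)
    (hg : g ∈ heckeSet U v) : a * g * b ∈ heckeSet U v := by
  obtain ⟨c, hc, d, hd, rfl⟩ := hg
  exact ⟨a * c, mul_mem ha hc, d * b, mul_mem hd hb, by group⟩

theorem mul_mem_heckeSet_iff {a b g : GLFin F} (ha : a ∈ U.toSubgroup) (hb : b ∈ U.toSubgroup) :
    a * g * b ∈ heckeSet U v ↔ g ∈ heckeSet U v := by
  refine ⟨fun h => ?_, mul_mem_heckeSet ha hb⟩
  have := mul_mem_heckeSet (inv_mem ha) (inv_mem hb) h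
  rwa [show a⁻¹ * (a * g * b) * b⁻¹ = g by group] at this

/-- `U diag (π_v, 1) U` is the union of the standard cosets. -/
theorem mem_heckeSet_iff (hU : IsGoodAt U v) {g : GLFin F} :
    g ∈ heckeSet U v ↔ ∃ r, (localGL v (rep v r))⁻¹ * g ∈ U.toSubgroup := by
  constructor
  · rintro ⟨a, ha, b, hb, rfl⟩
    obtain ⟨c, k, hk, hkU, rfl⟩ := exists_scalar_mul U ha
    obtain ⟨r, hr⟩ := exists_rep v (hk v)
    refine ⟨r, ?_⟩
    set k' := (localGL v (glPlace v k))⁻¹ * k with hk'
    have hk'U : k' ∈ U.toSubgroup := mul_mem (inv_mem (hU _ (hk v))) hkU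
    have hcomm : piGL v * k' = k' * piGL v := localGL_mul_comm _ (by
      rw [hk', map_mul, map_inv, glPlace_localGL_same, inv_mul_cancel]
      exact Commute.one_right _)
    have heq : (localGL v (rep v r))⁻¹ * (scalarFin F c * k * piGL v * b) =
        localGL v ((rep v r)⁻¹ * (glPlace v k * piDia v)) * scalarFin F c * k' * b := by
      rw [map_mul, map_mul, map_inv, mul_assoc (_ * _) (scalarFin F c), scalarFin_comm c k',
        show scalarFin F c * k = scalarFin F c * (localGL v (glPlace v k) * k') by
          rw [hk', mul_inv_cancel_left]]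
      rw [mul_assoc (scalarFin F c) _ (piGL v), mul_assoc _ k' (piGL v), ← hcomm]
      simp only [← mul_assoc, piGL]
      rw [mul_assoc _ (scalarFin F c) (localGL v (glPlace v k)), scalarFin_comm,
        mul_assoc _ (localGL v (piDia v)) k']
      simp only [← mul_assoc]
      rw [mul_assoc _ (scalarFin F c) (localGL v (piDia v)), scalarFin_comm]
      simp only [mul_assoc, scalarFin_comm]
    rw [heq]
    exact mul_mem (mul_mem (mul_mem (hU _ hr) (U.scalar_mem c)) hk'U) hb
  · rintro ⟨r, hr⟩
    obtain ⟨u, hu, rfl⟩ : ∃ u ∈ U.toSubgroup, g = localGL v (rep v r) * u :=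
      ⟨_, hr, (mul_inv_cancel_left _ _).symm⟩
    cases r with
    | none =>
      exact ⟨localGL v (swapGL v), hU _ (swapGL_mem v), localGL v (swapGL v) * u,
        mul_mem (hU _ (swapGL_mem v)) hu, by simp only [rep, map_mul, piGL, mul_assoc]⟩
    | some r =>
      exact ⟨localGL v (unip (resLift v r)), hU _ (unip_mem (valued_resLift v r)), u, hu,
        by simp only [rep, map_mul, piGL]⟩

/-- The coset representatives are pairwise inequivalent. -/
theorem rep_coset_injective (_hU : IsGoodAt U v) {r s : Option (Residue v)}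
    (h : (localGL v (rep v r))⁻¹ * localGL v (rep v s) ∈ U.toSubgroup) : r = s := by
  refine rep_injective v fun i j => ?_
  obtain ⟨a, k, hk, -, he⟩ := exists_scalar_mul U h
  set M := (rep v r)⁻¹ * rep v s
  have hM : M = glPlace v (scalarFin F a) * glPlace v k := by
    rw [← map_mul, ← he, map_mul, map_inv, glPlace_localGL_same, glPlace_localGL_same]
  have hent : ∀ i j, M.val i j = toPlace v (a : FinAdele F) * (glPlace v k).val i j := fun i j => by
    rw [hM, Units.val_mul, Matrix.mul_apply]
    simp [glPlace_scalarFin_apply]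
  have hdetM : Valued.v M.val.det = 1 := by
    rw [valued_det_rep_inv_mul, valued_det_rep, ← exp_add, neg_add_cancel, exp_zero]
  have ha : Valued.v (toPlace v (a : FinAdele F)) = 1 := by
    have h2 : M.val.det = toPlace v (a : FinAdele F) ^ 2 * (glPlace v k).val.det := by
      rw [Matrix.det_fin_two, Matrix.det_fin_two, hent, hent, hent, hent]; ring
    rw [h2, map_mul, map_pow, (hk v).2, mul_one] at hdetM
    exact (pow_eq_one_iff.1 hdetM).resolve_right two_ne_zero
  rw [hent, map_mul, ha, one_mul]
  exact (hk v).1 i j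

open Classical in
/-- The Hecke operator `T_v` at a good place. -/
def heckeAt (U : Level F) (v : FinPlace F) (hU : IsGoodAt U v) : HeckeFn U where
  toFun g := if g ∈ heckeSet U v then 1 else 0
  left_inv' u g hu := by
    have := mul_mem_heckeSet_iff (v := v) (g := g) hu (one_mem U.toSubgroup)
    rw [mul_one] at this
    simp only [this]
  right_inv' g u hu := by
    have := mul_mem_heckeSet_iff (v := v) (g := g) (one_mem U.toSubgroup) hu
    rw [one_mul] at this
    simp only [this]
  finite_support := by
    refine (Set.finite_range fun r => (QuotientGroup.mk (localGL v (rep v r)) :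
      GLFin F ⧸ U.toSubgroup)).subset ?_
    rintro _ ⟨g, hg, rfl⟩
    have hg' : g ∈ heckeSet U v := by
      by_contra h
      exact hg (if_neg h)
    obtain ⟨r, hr⟩ := (mem_heckeSet_iff hU).1 hg'
    exact ⟨r, QuotientGroup.eq.2 hr⟩

theorem inv_mem_heckeSet (hU : IsGoodAt U v) {g : GLFin F} (hg : g ∈ heckeSet U v) :
    g⁻¹ ∈ heckeSet U v := by
  obtain ⟨a, ha, b, hb, rfl⟩ := hg
  have hw := hU _ (swapGL_mem v)
  have hδ : (piGL v)⁻¹ = localGL v (swapGL v) * piGL v *
      (localGL v (swapGL v) * scalarFin F (piUnit v)⁻¹) := by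
    refine gl_ext fun w => Units.ext (Matrix.ext fun i j => ?_)
    have hπ : (piLocal v : v.adicCompletion F) ≠ 0 := (piLocal v).ne_zero
    simp only [piGL, ← map_inv (localGL v), map_mul]
    rcases eq_or_ne w v with rfl | hw
    · simp only [glPlace_localGL_same, Units.val_mul, Matrix.mul_apply, Fin.sum_univ_two,
        glPlace_scalarFin_apply, toPlace_units_inv, toPlace_piUnit_same]
      fin_cases i <;> fin_cases j <;> simp [swapGL, piDia, dia]
    · simp only [glPlace_localGL_ne hw, one_mul, glPlace_scalarFin_apply, toPlace_units_inv,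
        toPlace_piUnit_ne hw, inv_one, Units.val_one]
      fin_cases i <;> fin_cases j <;> simp
  exact ⟨b⁻¹ * localGL v (swapGL v), mul_mem (inv_mem hb) hw,
    localGL v (swapGL v) * scalarFin F (piUnit v)⁻¹ * a⁻¹,
    mul_mem (mul_mem hw (U.scalar_mem _)) (inv_mem ha), by
      rw [_root_.mul_inv_rev, _root_.mul_inv_rev, hδ]; group⟩

/-- The Hecke kernel is invariant under inversion. -/
theorem heckeAt_inv (hU : IsGoodAt U v) (g : GLFin F) :
    (heckeAt U v hU).toFun g⁻¹ = (heckeAt U v hU).toFun g := by
  have : g⁻¹ ∈ heckeSet U v ↔ g ∈ heckeSet U v :=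
    ⟨fun h => by simpa using inv_mem_heckeSet hU h, inv_mem_heckeSet hU⟩
  classical exact if_congr this rfl rfl

/-- The kernel of `T_v` is symmetric. -/
theorem heckeAt_kernel_symm (hU : IsGoodAt U v) (b c : GLFin F ⧸ U.toSubgroup) :
    (heckeAt U v hU).kernel b c = (heckeAt U v hU).kernel c b := by
  refine QuotientGroup.induction_on b fun g => QuotientGroup.induction_on c fun h => ?_
  rw [HeckeFn.kernel_mk, HeckeFn.kernel_mk, ← heckeAt_inv hU (g⁻¹ * h), _root_.mul_inv_rev, inv_inv]

/-- `T_v` as the sum over the `N v + 1` representatives. -/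
theorem heckeAt_op (hU : IsGoodAt U v) [Fintype (Residue v)] (φ : Y U → ℂ)
    (q : InfinitePlace F → H3) (g : GLFin F) :
    (heckeAt U v hU).op φ (q, QuotientGroup.mk g) =
      ∑ r : Option (Residue v), φ (q, QuotientGroup.mk (g * localGL v (rep v r))) := by
  classical
  let ι : Option (Residue v) → GLFin F ⧸ U.toSubgroup :=
    fun r => QuotientGroup.mk (g * localGL v (rep v r))
  have hι : Function.Injective ι := fun r s hrs => rep_coset_injective hU (by
    have := QuotientGroup.eq.1 hrs
    rwa [_root_.mul_inv_rev, mul_assoc, inv_mul_cancel_left] at this)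
  have hker : ∀ b, (heckeAt U v hU).kernel (QuotientGroup.mk g) b =
      if b ∈ Finset.univ.image ι then 1 else 0 := fun b => by
    refine QuotientGroup.induction_on b fun h => ?_
    rw [HeckeFn.kernel_mk]
    refine if_congr ?_ rfl rfl
    rw [mem_heckeSet_iff hU]
    simp only [Finset.mem_image, Finset.mem_univ, true_and, ι, QuotientGroup.eq,
      _root_.mul_inv_rev, mul_assoc]
  unfold HeckeFn.op
  rw [finsum_eq_sum_of_support_subset (s := Finset.univ.image ι)]
  · rw [Finset.sum_image hι.injOn]
    refine Finset.sum_congr rfl fun r _ => ?_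
    rw [hker, if_pos (Finset.mem_image_of_mem _ (Finset.mem_univ r)), one_mul]
  · intro b hb
    by_contra h
    refine hb ?_
    show (heckeAt U v hU).kernel (QuotientGroup.mk g) b * φ (q, b) = 0
    rw [hker, if_neg (by simpa using h), zero_mul]

end Fermat.Agent.LT.Places
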