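import Fermat.Agent.LT.Adele
import Mathlib.NumberTheory.Padics.HeightOneSpectrum
import Mathlib.NumberTheory.Padics.RingHoms
import Mathlib.NumberTheory.RamificationInertia.Valuation
import Mathlib.RingTheory.DedekindDomain.FiniteAdeleRing

/-!
# The component of a finite adele at a finite place

For a finite place `v` over the rational prime `p` the map `toPlace v : F ⊗ ℤ̂ → F_v` is built
from the continuous embedding `ℚ_p → F_v`.
-/

set_option autoImplicit false

noncomputable section

open IsDedekindDomain NumberField WithZero Rat.HeightOneSpectrum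
open scoped TensorProduct

namespace Fermat.Agent.LT.Places

variable {F : Type*} [Field F] [NumberField F]

/-- The finite places of `F`. -/
abbrev FinPlace (F : Type*) [Field F] : Type _ := HeightOneSpectrum (𝓞 F)

/-- The rational place below a finite place. -/
def below (v : FinPlace F) : HeightOneSpectrum ℤ := v.under ℤ

instance liesOver_below (v : FinPlace F) : v.asIdeal.LiesOver (below v).asIdeal :=
  ⟨rfl⟩

/-- The rational prime below a finite place. -/
def resPrime (v : FinPlace F) : Nat.Primes := primesEquiv (below v)

omit [NumberField F] in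
/-- The residue characteristic is prime. -/
theorem resPrime_prime (v : FinPlace F) : (resPrime v : ℕ).Prime := (resPrime v).2

omit [NumberField F] in
theorem natCast_mem_below (v : FinPlace F) :
    ((resPrime v : ℕ) : ℤ) ∈ (below v).asIdeal := by
  have h : ((resPrime v : ℕ) : ℤ) ∈
      (below v).asIdeal.map (Rat.IsIntegralClosure.intEquiv ℤ) :=
    (natGenerator_dvd_iff (below v)).1 dvd_rfl
  rw [Ideal.mem_map_iff_of_surjective _ (Rat.IsIntegralClosure.intEquiv ℤ).surjective] at h
  obtain ⟨x, hx, hxe⟩ := h
  rwa [show ((resPrime v : ℕ) : ℤ) = x by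
    apply (Rat.IsIntegralClosure.intEquiv ℤ).injective
    rw [hxe, map_natCast]]

omit [NumberField F] in
/-- The residue characteristic lies in the prime. -/
theorem natCast_mem (v : FinPlace F) : ((resPrime v : ℕ) : 𝓞 F) ∈ v.asIdeal := by
  have h := natCast_mem_below v
  rw [(liesOver_below v).over, Ideal.mem_comap] at h
  simpa using h

omit [NumberField F] in
/-- Only the residue characteristic lies in `v`. -/
theorem eq_resPrime {v : FinPlace F} {p : Nat.Primes} (h : ((p : ℕ) : 𝓞 F) ∈ v.asIdeal) :
    p = resPrime v := by
  by_contra hne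
  have hco : IsCoprime ((p : ℕ) : 𝓞 F) ((resPrime v : ℕ) : 𝓞 F) :=
    Nat.Coprime.cast ((Nat.coprime_primes p.2 (resPrime v).2).2 fun h => hne (Subtype.ext h))
  obtain ⟨a, b, hab⟩ := hco
  exact v.isPrime.ne_top ((Ideal.eq_top_iff_one _).2 (hab ▸ v.asIdeal.add_mem
    (v.asIdeal.mul_mem_left a h) (v.asIdeal.mul_mem_left b (natCast_mem v))))

/-- The continuous embedding `ℚ_p → F_v`. -/
def padicToPlace (v : FinPlace F) : ℚ_[(resPrime v : ℕ)] →+* v.adicCompletion F :=
  (HeightOneSpectrum.adicCompletion.equiv F v).symm.toRingHom.comp
    ((UniformSpace.Completion.mapRingHom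
        (algebraMap (WithVal ((below v).valuation ℚ)) (WithVal (v.valuation F)))
        (HeightOneSpectrum.uniformContinuous_algebraMap_liesOver (K := ℚ) (L := F)
          (below v) v).continuous).comp
      ((HeightOneSpectrum.adicCompletion.equiv ℚ (below v)).toRingHom.comp
        (adicCompletion.padicEquiv (below v)).symm.toRingEquiv.toRingHom))

/-- The map of `p`-adic numbers into the completion is continuous. -/
theorem continuous_padicToPlace (v : FinPlace F) : Continuous (padicToPlace v) :=
  (HeightOneSpectrum.adicCompletion.continuous_ofCompletion (K := F) v).comp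
    (UniformSpace.Completion.continuous_map.comp
      ((HeightOneSpectrum.adicCompletion.continuous_toCompletion (K := ℚ) (below v)).comp
        (adicCompletion.padicEquiv (below v)).symm.continuous))

/-- The valuation of a natural number in the completion. -/
theorem valued_natCast (v : FinPlace F) (n : ℕ) :
    Valued.v ((n : ℕ) : v.adicCompletion F) = v.valuation F (n : F) := by
  rw [← map_natCast (algebraMap F (v.adicCompletion F)) n]
  exact HeightOneSpectrum.valuedAdicCompletion_eq_valuation' v (n : F)

/-- `p`-adic integers are integral in the completion. -/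
theorem valued_padicToPlace_le_one (v : FinPlace F) (z : ℤ_[(resPrime v : ℕ)]) :
    Valued.v (padicToPlace v (z : ℚ_[(resPrime v : ℕ)])) ≤ 1 := by
  have hclosed : IsClosed {z : ℤ_[(resPrime v : ℕ)] |
      Valued.v (padicToPlace v (z : ℚ_[(resPrime v : ℕ)])) ≤ 1} :=
    ((Valued.isClosed_valuationSubring (v.adicCompletion F)).preimage
      ((continuous_padicToPlace v).comp continuous_subtype_val))
  suffices h : ∀ n : ℤ, Valued.v
      (padicToPlace v (((n : ℤ_[(resPrime v : ℕ)])) : ℚ_[(resPrime v : ℕ)])) ≤ 1 from
    hclosed.closure_subset_iff.2 (Set.range_subset_iff.2 h) (PadicInt.denseRange_intCast z)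
  intro n
  rw [PadicInt.coe_intCast, map_intCast, ← map_intCast (algebraMap F (v.adicCompletion F)) n]
  refine (HeightOneSpectrum.valuedAdicCompletion_eq_valuation' v (n : F)).trans_le ?_
  rw [← map_intCast (algebraMap (𝓞 F) F) n]
  exact v.valuation_le_one _

/-- A ring homomorphism as a `ℤ`-algebra homomorphism, for arbitrary `ℤ`-algebra structures. -/
def intHom {A B : Type*} [Ring A] [Ring B] [Algebra ℤ A] [Algebra ℤ B] (f : A →+* B) :
    A →ₐ[ℤ] B where
  __ := f
  commutes' r := by simp

/-- The component of a finite adele at `v`. -/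
def toPlace (v : FinPlace F) : FinAdele F →ₐ[ℤ] v.adicCompletion F :=
  Algebra.TensorProduct.lift (intHom (algebraMap F (v.adicCompletion F)))
    (intHom ((padicToPlace v).comp ((PadicInt.Coe.ringHom).comp
      (Pi.evalRingHom (fun p : Nat.Primes => ℤ_[(p : ℕ)]) (resPrime v)))))
    fun _ _ => Commute.all _ _

/-- The component at `v` of a pure tensor. -/
theorem toPlace_tmul (v : FinPlace F) (a : F) (z : Zhat) :
    toPlace v (a ⊗ₜ z) =
      algebraMap F (v.adicCompletion F) a *
        padicToPlace v ((z (resPrime v) : ℤ_[(resPrime v : ℕ)]) : ℚ_[(resPrime v : ℕ)]) := rfl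

/-- The component at `v` of an element of `F`. -/
theorem toPlace_finIncl (v : FinPlace F) (a : F) :
    toPlace v (finIncl F a) = algebraMap F (v.adicCompletion F) a := by
  show toPlace v (a ⊗ₜ 1) = _
  rw [toPlace_tmul, Pi.one_apply, PadicInt.coe_one, map_one, mul_one]

/-- The absolute value of a finite adele at `v`, in `ℤᵐ⁰`. -/
def placeVal (v : FinPlace F) (x : FinAdele F) : ℤᵐ⁰ := Valued.v (toPlace v x)

/-- `placeVal` is multiplicative. -/
theorem placeVal_mul (v : FinPlace F) (x y : FinAdele F) :
    placeVal v (x * y) = placeVal v x * placeVal v y := by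
  simp [placeVal]

/-- `placeVal v 1 = 1`. -/
theorem placeVal_one (v : FinPlace F) : placeVal v (1 : FinAdele F) = 1 := by
  simp [placeVal]

/-- `placeVal` is ultrametric for sums. -/
theorem placeVal_add_le (v : FinPlace F) (x y : FinAdele F) :
    placeVal v (x + y) ≤ max (placeVal v x) (placeVal v y) := by
  simp only [placeVal, map_add]
  exact Valued.v.map_add _ _

/-- `placeVal` is ultrametric for differences. -/
theorem placeVal_sub_le (v : FinPlace F) (x y : FinAdele F) :
    placeVal v (x - y) ≤ max (placeVal v x) (placeVal v y) := by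
  simp only [placeVal, map_sub]
  exact Valued.v.map_sub _ _

/-- `placeVal` on `F` is the valuation. -/
theorem placeVal_finIncl (v : FinPlace F) (a : F) :
    placeVal v (finIncl F a) = v.valuation F a := by
  rw [placeVal, toPlace_finIncl]
  exact HeightOneSpectrum.valuedAdicCompletion_eq_valuation' v a

/-- `placeVal` of a natural number. -/
theorem placeVal_natCast (v : FinPlace F) (n : ℕ) :
    placeVal v (n : FinAdele F) = v.valuation F (n : F) := by
  rw [placeVal, map_natCast, valued_natCast]

/-- Integral adeles have integral components. -/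
theorem placeVal_le_one (v : FinPlace F) {x : FinAdele F} (hx : x ∈ integralAdele F) :
    placeVal v x ≤ 1 := by
  obtain ⟨y, rfl⟩ := hx
  induction y using TensorProduct.induction_on with
  | zero => simp [placeVal]
  | tmul a z =>
    show Valued.v (toPlace v ((a : F) ⊗ₜ z)) ≤ 1
    rw [toPlace_tmul, map_mul]
    refine mul_le_one' ?_ (valued_padicToPlace_le_one v _)
    exact (HeightOneSpectrum.valuedAdicCompletion_eq_valuation' v (a : F)).trans_le
      (v.valuation_le_one a)
  | add a b ha hb =>
    rw [map_add]
    exact (placeVal_add_le v _ _).trans (max_le ha hb)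

end Fermat.Agent.LT.Places
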