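import Fermat.Agent.LT.Places.Basic
import Mathlib.RingTheory.DedekindDomain.Ideal.Lemmas
import Mathlib.NumberTheory.Padics.ProperSpace

/-!
# Finite adeles with prescribed components

Every family of components, integral at almost all places, comes from a finite adele
(`exists_of_components`).
-/

set_option autoImplicit false

noncomputable section

open IsDedekindDomain NumberField WithZero Filter Topology
open scoped TensorProduct

namespace Fermat.Agent.LT.Places

variable {F : Type*} [Field F] [NumberField F]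

/-- Valuation balls form a neighbourhood base. -/
theorem exists_nhds_ball (v : FinPlace F) {c : v.adicCompletion F} {U : Set (v.adicCompletion F)}
    (hU : U ∈ 𝓝 c) :
    ∃ γ : ℤᵐ⁰, γ ≠ 0 ∧ ∀ y, Valued.v (y - c) < γ → y ∈ U := by
  obtain ⟨γ, hγ⟩ := Valued.mem_nhds.1 hU
  refine ⟨MonoidWithZeroHom.ValueGroup₀.embedding γ.1, ?_, fun y hy => hγ ?_⟩
  · exact (map_ne_zero _).2 γ.ne_zero
  · exact (Valuation.restrict_lt_iff_lt_embedding _).2 hy

/-- Some `exp (-m)` is below any positive value. -/
theorem exists_natCast_exp_lt {γ : ℤᵐ⁰} (h : γ ≠ 0) : ∃ m : ℕ, exp (-(m : ℤ)) < γ := by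
  refine ⟨(1 - log γ).toNat, ?_⟩
  conv_rhs => rw [← exp_log h]
  rw [exp_lt_exp]
  omega

/-- A local integer is approximated by a global one. -/
theorem exists_integer_near (v : FinPlace F) {c : v.adicCompletion F} (hc : Valued.v c ≤ 1)
    {γ : ℤᵐ⁰} (hγ : γ ≠ 0) :
    ∃ o : 𝓞 F, Valued.v (algebraMap F (v.adicCompletion F) (o : F) - c) < γ := by
  have hγ' : min γ 1 ≠ 0 := by
    rcases min_choice γ 1 with h | h <;> rw [h]
    · exact hγ
    · exact one_ne_zero
  obtain ⟨π, hπ⟩ := HeightOneSpectrum.valuedAdicCompletion_surjective F v (min γ 1)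
  have hopen : IsOpen {y : v.adicCompletion F | Valued.v (y - c) < min γ 1} := by
    have hπ0 : Valued.v π ≠ 0 := by rw [hπ]; exact hγ'
    refine isOpen_iff_mem_nhds.2 fun y hy => Valued.mem_nhds.2 ?_
    refine ⟨Units.mk0 (Valued.v.restrict π) fun h => hπ0 ((Valuation.restrict_eq_zero_iff _).1 h),
      fun z hz => ?_⟩
    have hz' : Valued.v (z - y) < Valued.v π := (Valuation.restrict_lt_iff _).1 hz
    show Valued.v (z - c) < min γ 1
    rw [show z - c = (z - y) + (y - c) by abel]
    exact Valued.v.map_add_lt (hπ ▸ hz') hy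
  obtain ⟨a, ha⟩ := (HeightOneSpectrum.denseRange_algebraMap F v).exists_mem_open hopen
    ⟨c, by simpa using zero_lt_iff.2 hγ'⟩
  rw [Set.mem_ofPred_eq] at ha
  have ha1 : v.valuation F a ≤ 1 := by
    rw [← HeightOneSpectrum.valuedAdicCompletion_eq_valuation']
    have := Valued.v.map_add (algebraMap F (v.adicCompletion F) a - c) c
    rw [sub_add_cancel] at this
    exact this.trans (max_le (ha.le.trans (min_le_right _ _)) hc)
  obtain ⟨o, ho⟩ := v.exists_valuation_sub_lt_of_integer ha1 (Units.mk0 _ hγ)
  refine ⟨o, ?_⟩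
  rw [show algebraMap F (v.adicCompletion F) (o : F) - c =
    algebraMap F (v.adicCompletion F) ((o : F) - a) + (algebraMap F (v.adicCompletion F) a - c) by
      rw [map_sub]; abel]
  refine Valued.v.map_add_lt ?_ (ha.trans_le (min_le_left _ _))
  exact (HeightOneSpectrum.valuedAdicCompletion_eq_valuation' v _).trans_lt ho

/-- Simultaneous approximation of finitely many local integers by a global integer. -/
theorem exists_integer_near_finset (s : Finset (FinPlace F))
    (c : ∀ v : FinPlace F, v.adicCompletion F) (hc : ∀ v, Valued.v (c v) ≤ 1)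
    (γ : FinPlace F → ℤᵐ⁰) (hγ : ∀ v, γ v ≠ 0) :
    ∃ o : 𝓞 F, ∀ v ∈ s, Valued.v (algebraMap F (v.adicCompletion F) (o : F) - c v) < γ v := by
  choose m hm using fun v => exists_natCast_exp_lt (hγ v)
  choose o ho using fun v => exists_integer_near v (hc v) (hγ v)
  obtain ⟨y, hy⟩ := IsDedekindDomain.exists_forall_sub_mem_ideal (s := s)
    (fun v : FinPlace F => v.asIdeal) m (fun v _ => v.prime)
    (fun v _ w _ h => fun e => h (HeightOneSpectrum.ext e)) (fun v => o v.1)
  refine ⟨y, fun v hv => ?_⟩
  rw [show algebraMap F (v.adicCompletion F) (y : F) - c v =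
    algebraMap F (v.adicCompletion F) ((y - o v : 𝓞 F) : F) +
      (algebraMap F (v.adicCompletion F) (o v : F) - c v) by
      simp only [RingOfIntegers.coe_eq_algebraMap, map_sub]; abel]
  refine Valued.v.map_add_lt ?_ (ho v)
  refine (HeightOneSpectrum.valuedAdicCompletion_eq_valuation' v _).trans_lt ?_
  simp only [Algebra.algebraMap_self_apply, RingOfIntegers.coe_eq_algebraMap,
    HeightOneSpectrum.valuation_of_algebraMap]
  exact ((v.intValuation_le_pow_iff_mem _ _).2 (hy v hv)).trans_lt (hm v)

/-- Integral components come from an integral adele. -/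
theorem exists_integral_of_components (c : ∀ v : FinPlace F, v.adicCompletion F)
    (hc : ∀ v, Valued.v (c v) ≤ 1) :
    ∃ y ∈ integralAdele F, ∀ v, toPlace v y = c v := by
  classical
  let Φ : (Module.Free.ChooseBasisIndex ℤ (𝓞 F) → Zhat) → ∀ v : FinPlace F, v.adicCompletion F :=
    fun z v => ∑ i, algebraMap F (v.adicCompletion F) (bas F i) *
      padicToPlace v ((z i (resPrime v) : ℤ_[(resPrime v : ℕ)]) : ℚ_[(resPrime v : ℕ)])
  have hΦ : Continuous Φ := continuous_pi fun v => continuous_finsetSum _ fun i _ =>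
    continuous_const.mul ((continuous_padicToPlace v).comp (continuous_subtype_val.comp
      ((continuous_apply (resPrime v)).comp (continuous_apply i))))
  have hclosed : IsClosed (Set.range Φ) := (isCompact_range hΦ).isClosed
  have hto : ∀ z v, toPlace v (∑ i, bas F i ⊗ₜ z i) = Φ z v := fun z v => by
    rw [map_sum]
    exact Finset.sum_congr rfl fun i _ => toPlace_tmul v _ _
  have hmem : c ∈ closure (Set.range Φ) := by
    rw [mem_closure_iff]
    intro U hU hcU
    obtain ⟨s, u, hu, hsub⟩ := isOpen_pi_iff.1 hU c hcU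
    have h : ∀ v : FinPlace F, ∃ γ : ℤᵐ⁰, γ ≠ 0 ∧
        (v ∈ s → ∀ y, Valued.v (y - c v) < γ → y ∈ u v) := fun v => by
      by_cases hv : v ∈ s
      · obtain ⟨γ, hγ, hy⟩ := exists_nhds_ball v ((hu v hv).1.mem_nhds (hu v hv).2)
        exact ⟨γ, hγ, fun _ => hy⟩
      · exact ⟨1, one_ne_zero, fun h => absurd h hv⟩
    choose γ hγ hy using h
    obtain ⟨o, ho⟩ := exists_integer_near_finset s c hc γ hγ
    obtain ⟨z, hz⟩ := exists_coords (Reduction.finIncl_mem_of_isIntegral o)
    refine ⟨Φ z, hsub fun v hv => hy v hv _ ?_, z, rfl⟩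
    rw [← hto, ← hz, toPlace_finIncl]
    exact ho v hv
  rw [hclosed.closure_eq] at hmem
  obtain ⟨z, hz⟩ := hmem
  refine ⟨∑ i, bas F i ⊗ₜ z i,
    sum_mem fun i _ => tmul_mem_integralAdele (RingOfIntegers.basis F i) (z i), fun v => ?_⟩
  exact (hto z v).trans (congrFun hz v)

/-- The residue characteristic lies in the maximal ideal. -/
theorem valuation_resPrime_lt_one (v : FinPlace F) :
    v.valuation F ((resPrime v : ℕ) : F) < 1 := by
  rw [← map_natCast (algebraMap (𝓞 F) F), HeightOneSpectrum.valuation_lt_one_iff_mem]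
  exact natCast_mem v

/-- The residue characteristic has valuation at most `exp (-1)`. -/
theorem valuation_resPrime_le (v : FinPlace F) :
    v.valuation F ((resPrime v : ℕ) : F) ≤ exp (-1 : ℤ) := by
  have h := valuation_resPrime_lt_one v
  have h0 := valuation_natCast_ne_zero v (resPrime_prime v).pos
  rw [← exp_log h0, ← exp_zero, exp_lt_exp] at h
  rw [← exp_log h0, exp_le_exp]
  omega

theorem exists_natCast_clear (v : FinPlace F) (x : v.adicCompletion F) :
    ∃ N : ℕ, 0 < N ∧ Valued.v ((N : v.adicCompletion F) * x) ≤ 1 := by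
  obtain hx | hx := le_or_gt (Valued.v x) 1
  · exact ⟨1, one_pos, by simpa using hx⟩
  refine ⟨(resPrime v : ℕ) ^ (log (Valued.v x)).toNat, pow_pos (resPrime_prime v).pos _, ?_⟩
  rw [map_mul, Nat.cast_pow, map_pow, valued_natCast]
  refine (mul_le_mul' (pow_le_pow_left' (valuation_resPrime_le v) _) le_rfl).trans ?_
  conv_lhs => rw [← exp_log (ne_zero_of_lt hx), log_exp, ← exp_nsmul, ← exp_add]
  rw [← exp_zero, exp_le_exp, nsmul_eq_mul]
  omega

/-- Components integral at almost all places come from an adele. -/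
theorem exists_of_components (c : ∀ v : FinPlace F, v.adicCompletion F)
    (hc : {v | 1 < Valued.v (c v)}.Finite) :
    ∃ x : FinAdele F, ∀ v, toPlace v x = c v := by
  classical
  choose N hN hNc using fun v => exists_natCast_clear v (c v)
  set M := ∏ v ∈ hc.toFinset, N v with hMdef
  have hM : 0 < M := Finset.prod_pos fun v _ => hN v
  have hMc : ∀ v, Valued.v ((M : v.adicCompletion F) * c v) ≤ 1 := fun v => by
    by_cases hv : v ∈ hc.toFinset
    · rw [hMdef, ← Finset.mul_prod_erase _ _ hv, Nat.cast_mul, mul_comm (N v : v.adicCompletion F),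
        mul_assoc, map_mul, valued_natCast]
      exact mul_le_one' (valuation_natCast_le_one v _) (hNc v)
    · rw [map_mul, valued_natCast]
      exact mul_le_one' (valuation_natCast_le_one v _) (by simpa using hv)
  obtain ⟨y, -, hy⟩ := exists_integral_of_components _ hMc
  refine ⟨finIncl F ((M : F)⁻¹) * y, fun v => ?_⟩
  rw [map_mul, toPlace_finIncl, hy, ← map_natCast (algebraMap F (v.adicCompletion F)) M,
    ← mul_assoc, ← map_mul, inv_mul_cancel₀ (Nat.cast_ne_zero.2 hM.ne'), map_one, one_mul]

/-- The adele with the given components. -/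
def adeleOf (c : ∀ v : FinPlace F, v.adicCompletion F)
    (hc : {v | 1 < Valued.v (c v)}.Finite) : FinAdele F :=
  (exists_of_components c hc).choose

/-- The components of `adeleOf c`. -/
theorem toPlace_adeleOf (c : ∀ v : FinPlace F, v.adicCompletion F)
    (hc : {v | 1 < Valued.v (c v)}.Finite) (v : FinPlace F) :
    toPlace v (adeleOf c hc) = c v :=
  (exists_of_components c hc).choose_spec v

end Fermat.Agent.LT.Places
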