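import Fermat.Agent.LT.Places.Completion
import Fermat.Agent.LT.Reduction.Integral

/-!
# Finite adeles are determined by their components

An adele is integral iff all its components are integral, and an adele with vanishing components
is zero.
-/

set_option autoImplicit false

noncomputable section

open IsDedekindDomain NumberField WithZero
open scoped TensorProduct

namespace Fermat.Agent.LT.Places

variable {F : Type*} [Field F] [NumberField F]

open Fermat.Agent.LT.Reduction

/-- Positive integers are invertible finite adeles. -/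
theorem isUnit_natCast (N : ℕ) (hN : 0 < N) : IsUnit ((N : ℕ) : FinAdele F) := by
  have h : IsUnit ((N : ℕ) : F) := (Nat.cast_ne_zero.2 hN.ne').isUnit
  simpa using h.map (finIncl F)

/-- A positive integer has nonzero valuation. -/
theorem valuation_natCast_ne_zero (v : FinPlace F) {N : ℕ} (hN : 0 < N) :
    v.valuation F (N : F) ≠ 0 := by
  simp [hN.ne']

/-- Natural numbers are integral at every place. -/
theorem valuation_natCast_le_one (v : FinPlace F) (N : ℕ) : v.valuation F (N : F) ≤ 1 := by
  rw [← map_natCast (algebraMap (𝓞 F) F) N]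
  exact v.valuation_le_one _

/-- An integral adele is divisible by `N` iff all its components are. -/
theorem exists_mul_of_placeVal_le {N : ℕ} (hN : 0 < N) {x : FinAdele F}
    (hx : x ∈ integralAdele F) (h : ∀ v, placeVal v x ≤ v.valuation F (N : F)) :
    ∃ y ∈ integralAdele F, x = (N : FinAdele F) * y := by
  obtain ⟨o, u, hu, rfl⟩ := exists_integer_add N hN hx
  have hN0 : (N : F) ≠ 0 := Nat.cast_ne_zero.2 hN.ne'
  have ho : ∀ v : FinPlace F, v.valuation F ((o : F) / N) ≤ 1 := by
    intro v
    rw [map_div₀, div_le_one₀ (zero_lt_iff.2 (valuation_natCast_ne_zero v hN)), ← placeVal_finIncl]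
    have := placeVal_sub_le v (finIncl F (o : F) + (N : FinAdele F) * u) ((N : FinAdele F) * u)
    rw [add_sub_cancel_right] at this
    refine this.trans (max_le (h v) ?_)
    rw [placeVal_mul, placeVal_natCast]
    exact mul_le_of_le_one_right' (placeVal_le_one v hu)
  obtain ⟨c, hc⟩ := HeightOneSpectrum.mem_integers_of_valuation_le_one F _ ho
  refine ⟨finIncl F (c : F) + u, add_mem (finIncl_mem_of_isIntegral c) hu, ?_⟩
  rw [mul_add, ← map_natCast (finIncl F) N, ← map_mul]
  congr 2
  rw [show (c : F) = (o : F) / N from hc]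
  field_simp

/-- An adele is integral iff it is integral at every place. -/
theorem mem_integralAdele_iff {x : FinAdele F} :
    x ∈ integralAdele F ↔ ∀ v, placeVal v x ≤ 1 := by
  refine ⟨fun hx v => placeVal_le_one v hx, fun h => ?_⟩
  obtain ⟨N, hN, hNx⟩ := exists_natCast_mul_mem x
  obtain ⟨y, hy, hxy⟩ := exists_mul_of_placeVal_le hN hNx fun v => by
    rw [placeVal_mul, placeVal_natCast]
    exact mul_le_of_le_one_right' (h v)
  rwa [(isUnit_natCast N hN).mul_left_cancel hxy]

variable (F) in
/-- The integral basis, as elements of `F`. -/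
def bas (i : Module.Free.ChooseBasisIndex ℤ (𝓞 F)) : F := (RingOfIntegers.basis F i : F)

/-- An integral adele has coordinates in `ℤ̂` in the integral basis. -/
theorem exists_coords {y : FinAdele F} (hy : y ∈ integralAdele F) :
    ∃ z : Module.Free.ChooseBasisIndex ℤ (𝓞 F) → Zhat, y = ∑ i, bas F i ⊗ₜ z i := by
  obtain ⟨y, rfl⟩ := hy
  induction y using TensorProduct.induction_on with
  | zero => exact ⟨0, by simp⟩
  | tmul o z =>
    refine ⟨fun i => (RingOfIntegers.basis F).repr o i • z, ?_⟩
    change (o : F) ⊗ₜ z = _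
    conv_lhs => rw [← (RingOfIntegers.basis F).sum_repr o]
    simp only [bas, RingOfIntegers.coe_eq_algebraMap, map_sum, map_zsmul, TensorProduct.sum_tmul,
      TensorProduct.tmul_smul, ← TensorProduct.smul_tmul']
  | add a b ha hb =>
    obtain ⟨z, hz⟩ := ha
    obtain ⟨w, hw⟩ := hb
    refine ⟨z + w, ?_⟩
    rw [map_add, hz, hw, ← Finset.sum_add_distrib]
    simp [TensorProduct.tmul_add]

theorem coordAt_sum (z : Module.Free.ChooseBasisIndex ℤ (𝓞 F) → Zhat)
    (j : Module.Free.ChooseBasisIndex ℤ (𝓞 F)) (p : Nat.Primes) :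
    coordAt j p (∑ i, bas F i ⊗ₜ z i) = (z j p : ℚ_[(p : ℕ)]) := by
  classical
  rw [map_sum, Finset.sum_eq_single j]
  · rw [coordAt_tmul, bas, integralBasis_repr_integer, Module.Basis.repr_self,
      Finsupp.single_eq_same]
    simp
  · intro i _ hi
    rw [coordAt_tmul, bas, integralBasis_repr_integer, Module.Basis.repr_self,
      Finsupp.single_eq_of_ne hi.symm]
    simp
  · simp

/-- An adele with vanishing coordinates is zero. -/
theorem eq_zero_of_coordAt {x : FinAdele F} (h : ∀ i p, coordAt i p x = 0) : x = 0 := by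
  obtain ⟨N, hN, hNx⟩ := exists_natCast_mul_mem x
  obtain ⟨z, hz⟩ := exists_coords hNx
  have hz0 : ∀ i, z i = 0 := fun i => funext fun p => by
    have h' := coordAt_sum z i p
    rw [← hz, ← nsmul_eq_mul, map_nsmul, h, smul_zero] at h'
    exact PadicInt.coe_eq_zero.1 h'.symm
  have : (N : FinAdele F) * x = 0 := by simp [hz, hz0]
  exact (isUnit_natCast N hN).mul_right_eq_zero.1 this

/-- An adele with vanishing components is zero. -/
theorem eq_zero_of_toPlace {x : FinAdele F} (h : ∀ v, toPlace v x = 0) : x = 0 := by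
  refine eq_zero_of_coordAt fun i p => ?_
  have hx : x ∈ integralAdele F := mem_integralAdele_iff.2 fun v => by simp [placeVal, h v]
  refine norm_eq_zero.1 (le_antisymm ?_ (norm_nonneg _))
  refine ge_of_tendsto' (tendsto_pow_atTop_nhds_zero_of_lt_one (r := (((p : ℕ) : ℝ))⁻¹)
    (by positivity) (inv_lt_one_of_one_lt₀ (by exact_mod_cast p.2.one_lt))) fun k => ?_
  obtain ⟨y, hy, rfl⟩ := exists_mul_of_placeVal_le (pow_pos p.2.pos k) hx fun v => by
    simp [placeVal, h v]
  rw [← nsmul_eq_mul, map_nsmul, nsmul_eq_mul, norm_mul]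
  refine (mul_le_mul_of_nonneg_left (norm_coordAt_le i p hy) (norm_nonneg _)).trans ?_
  simp

/-- Adeles with the same components are equal. -/
theorem ext_toPlace {x y : FinAdele F} (h : ∀ v, toPlace v x = toPlace v y) : x = y :=
  sub_eq_zero.1 (eq_zero_of_toPlace fun v => by rw [map_sub, h v, sub_self])

/-- A positive integer is a unit at almost every place. -/
theorem finite_natCast (N : ℕ) (hN : 0 < N) :
    {v : FinPlace F | v.valuation F (N : F) ≠ 1}.Finite := by
  refine (HeightOneSpectrum.Support.finite (R := 𝓞 F) ((N : F)⁻¹)).subset fun v hv => ?_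
  show 1 < v.valuation F ((N : F)⁻¹)
  rw [map_inv₀, one_lt_inv₀ (zero_lt_iff.2 (valuation_natCast_ne_zero v hN))]
  exact lt_of_le_of_ne (valuation_natCast_le_one v N) hv

/-- Almost all components of an adele are integral. -/
theorem finite_placeVal (x : FinAdele F) : {v : FinPlace F | 1 < placeVal v x}.Finite := by
  obtain ⟨N, hN, hNx⟩ := exists_natCast_mul_mem x
  refine (finite_natCast N hN).subset fun v (hv : 1 < placeVal v x) h1 => not_le.2 hv ?_
  simpa [placeVal_mul, placeVal_natCast, h1] using placeVal_le_one v hNx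

end Fermat.Agent.LT.Places
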