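import Fermat.Agent.LT.Places.Components

/-!
# Component idempotents, uniformiser ideles and the structure of finite ideles

Every finite idele is a finite product of powers of uniformiser ideles times a unit of `Ô`
(`exists_prod_mul_unit`).
-/

set_option autoImplicit false

noncomputable section

open IsDedekindDomain NumberField WithZero
open scoped TensorProduct

namespace Fermat.Agent.LT.Places

variable {F : Type*} [Field F] [NumberField F]

theorem finite_single [DecidableEq (FinPlace F)] (v : FinPlace F) (a : v.adicCompletion F) :
    {w : FinPlace F | 1 < Valued.v (Pi.single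
      (M := fun w : FinPlace F => w.adicCompletion F) v a w)}.Finite := by
  refine (Set.finite_singleton v).subset fun w hw => by_contra fun hne => ?_
  have hw' : 1 < Valued.v (Pi.single (M := fun w : FinPlace F => w.adicCompletion F) v a w) := hw
  rw [Pi.single_eq_of_ne hne, map_zero] at hw'
  exact not_lt_zero hw'

open Classical in
/-- The adele with component `a` at `v` and `0` elsewhere. -/
def single (v : FinPlace F) : v.adicCompletion F →+ FinAdele F where
  toFun a := adeleOf (Pi.single (M := fun w : FinPlace F => w.adicCompletion F) v a)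
    (finite_single v a)
  map_zero' := ext_toPlace fun w => by rw [toPlace_adeleOf, Pi.single_zero, map_zero]; rfl
  map_add' a b := ext_toPlace fun w => by
    rw [map_add, toPlace_adeleOf, toPlace_adeleOf, toPlace_adeleOf, Pi.single_add]; rfl

/-- The component at `v` of an adele supported at `v`. -/
@[simp] theorem toPlace_single_same (v : FinPlace F) (a : v.adicCompletion F) :
    toPlace v (single v a) = a := by
  classical
  exact (toPlace_adeleOf _ (finite_single v a) v).trans (Pi.single_eq_same v a)

/-- The other components of an adele supported at `v` vanish. -/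
theorem toPlace_single_ne {v w : FinPlace F} (h : w ≠ v) (a : v.adicCompletion F) :
    toPlace w (single v a) = 0 := by
  classical
  exact (toPlace_adeleOf _ (finite_single v a) w).trans (Pi.single_eq_of_ne h a)

/-- `single v` is multiplicative. -/
theorem single_mul (v : FinPlace F) (a b : v.adicCompletion F) :
    single v (a * b) = single v a * single v b :=
  ext_toPlace fun w => by
    rcases eq_or_ne w v with rfl | h
    · simp
    · simp [toPlace_single_ne h]

/-- The idempotent of a place. -/
def idem (v : FinPlace F) : FinAdele F := single v 1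

/-- The idempotent at `v` is `1` at `v`. -/
theorem toPlace_idem_same (v : FinPlace F) : toPlace v (idem v) = 1 := toPlace_single_same v 1

/-- The idempotent at `v` is `0` elsewhere. -/
theorem toPlace_idem_ne {v w : FinPlace F} (h : w ≠ v) : toPlace w (idem v) = 0 :=
  toPlace_single_ne h 1

/-- `idem v` is idempotent. -/
theorem idem_mul_idem (v : FinPlace F) : idem v * idem v = idem v := by
  rw [idem, ← single_mul, one_mul]

/-- Idempotents at distinct places are orthogonal. -/
theorem idem_mul_of_ne {v w : FinPlace F} (h : v ≠ w) : idem v * idem w = 0 :=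
  ext_toPlace fun u => by
    rcases eq_or_ne u v with rfl | hu
    · simp [toPlace_idem_ne h]
    · simp [toPlace_idem_ne hu]

/-- The idempotent of `v` cuts out the component at `v`. -/
theorem single_toPlace (v : FinPlace F) (x : FinAdele F) : single v (toPlace v x) = idem v * x :=
  ext_toPlace fun w => by
    rcases eq_or_ne w v with rfl | h
    · simp [toPlace_idem_same]
    · simp [toPlace_single_ne h, toPlace_idem_ne h]

/-- An integral local element gives an integral adele. -/
theorem single_mem_integralAdele {v : FinPlace F} {a : v.adicCompletion F} (h : Valued.v a ≤ 1) :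
    single v a ∈ integralAdele F :=
  mem_integralAdele_iff.2 fun w => by
    rcases eq_or_ne w v with rfl | hw
    · simpa [placeVal] using h
    · simp [placeVal, toPlace_single_ne hw]

/-- The idempotent at `v` is integral. -/
theorem idem_mem_integralAdele (v : FinPlace F) : idem v ∈ integralAdele F :=
  single_mem_integralAdele (by simp)

/-- The multiplicative map `F_v → A_f` equal to `1` at the other places. -/
def localMap (v : FinPlace F) : v.adicCompletion F →* FinAdele F where
  toFun a := 1 - idem v + single v a
  map_one' := by rw [idem, sub_add_cancel]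
  map_mul' a b := ext_toPlace fun w => by
    rcases eq_or_ne w v with rfl | h
    · simp only [map_mul, map_add, map_sub, map_one, toPlace_idem_same, toPlace_single_same,
        sub_self, zero_add]
    · simp only [map_mul, map_add, map_sub, map_one, toPlace_idem_ne h, toPlace_single_ne h,
        sub_zero, add_zero, mul_one]

/-- A local unit as an idele, equal to `1` at the other places. -/
def localUnit (v : FinPlace F) : (v.adicCompletion F)ˣ →* (FinAdele F)ˣ :=
  Units.map (localMap v)

/-- The component at `v` of a local unit. -/
theorem toPlace_localUnit_same (v : FinPlace F) (a : (v.adicCompletion F)ˣ) :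
    toPlace v (localUnit v a : FinAdele F) = a := by
  show toPlace v (1 - idem v + single v (a : v.adicCompletion F)) = a
  simp [toPlace_idem_same]

/-- The other components of a local unit are `1`. -/
theorem toPlace_localUnit_ne {v w : FinPlace F} (h : w ≠ v) (a : (v.adicCompletion F)ˣ) :
    toPlace w (localUnit v a : FinAdele F) = 1 := by
  show toPlace w (1 - idem v + single v (a : v.adicCompletion F)) = 1
  simp [toPlace_idem_ne h, toPlace_single_ne h]

/-- Ideles are determined by their components. -/
theorem units_ext {x y : (FinAdele F)ˣ} (h : ∀ v, toPlace v (x : FinAdele F) = toPlace v y) :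
    x = y := Units.ext (ext_toPlace h)

/-- Components of ideles are nonzero. -/
theorem toPlace_units_ne_zero (v : FinPlace F) (x : (FinAdele F)ˣ) :
    toPlace v (x : FinAdele F) ≠ 0 := ((x.isUnit).map (toPlace v)).ne_zero

/-- The components of the inverse idele. -/
theorem toPlace_units_inv (v : FinPlace F) (x : (FinAdele F)ˣ) :
    toPlace v ((x⁻¹ : (FinAdele F)ˣ) : FinAdele F) = (toPlace v (x : FinAdele F))⁻¹ := by
  apply eq_inv_of_mul_eq_one_left
  rw [← map_mul, ← Units.val_mul, inv_mul_cancel, Units.val_one, map_one]

/-- Ideles have nonzero valuation everywhere. -/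
theorem placeVal_units_ne_zero (v : FinPlace F) (x : (FinAdele F)ˣ) :
    placeVal v (x : FinAdele F) ≠ 0 := (Valuation.ne_zero_iff _).2 (toPlace_units_ne_zero v x)

/-- The valuation of the inverse idele. -/
theorem placeVal_units_inv (v : FinPlace F) (x : (FinAdele F)ˣ) :
    placeVal v ((x⁻¹ : (FinAdele F)ˣ) : FinAdele F) = (placeVal v (x : FinAdele F))⁻¹ := by
  apply eq_inv_of_mul_eq_one_left
  rw [← placeVal_mul, ← Units.val_mul, inv_mul_cancel, Units.val_one, placeVal_one]

/-- An idele is a unit at almost every place. -/
theorem finite_placeVal_units (x : (FinAdele F)ˣ) :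
    {v : FinPlace F | placeVal v (x : FinAdele F) ≠ 1}.Finite := by
  refine ((finite_placeVal (x : FinAdele F)).union
    (finite_placeVal ((x⁻¹ : (FinAdele F)ˣ) : FinAdele F))).subset fun v hv => ?_
  rcases lt_or_gt_of_ne hv with h | h
  · refine Or.inr ?_
    show 1 < placeVal v _
    rw [placeVal_units_inv]
    exact (one_lt_inv₀ (zero_lt_iff.2 (placeVal_units_ne_zero v x))).2 h
  · exact Or.inl h

/-- An adele with nonzero components, almost all of valuation one, is an idele. -/
theorem isUnit_of_placeVal {x : FinAdele F} (h0 : ∀ v, toPlace v x ≠ 0)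
    (hfin : {v : FinPlace F | placeVal v x ≠ 1}.Finite) : IsUnit x := by
  obtain ⟨y, hy⟩ := exists_of_components (fun v => (toPlace v x)⁻¹) (hfin.subset fun v hv h1 => by
    have hv' : 1 < Valued.v (toPlace v x)⁻¹ := hv
    rw [map_inv₀, show Valued.v (toPlace v x) = 1 from h1, inv_one] at hv'
    exact lt_irrefl _ hv')
  exact IsUnit.of_mul_eq_one y
    (ext_toPlace fun v => by rw [map_mul, hy, mul_inv_cancel₀ (h0 v), map_one])

/-- Ideles which are units of `Ô`. -/
theorem mem_integralUnits_iff {x : (FinAdele F)ˣ} :
    ((x : FinAdele F) ∈ integralAdele F ∧ ((x⁻¹ : (FinAdele F)ˣ) : FinAdele F) ∈ integralAdele F) ↔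
      ∀ v, placeVal v (x : FinAdele F) = 1 := by
  simp only [mem_integralAdele_iff, ← forall_and]
  refine forall_congr' fun v => ?_
  rw [placeVal_units_inv, inv_le_one₀ (zero_lt_iff.2 (placeVal_units_ne_zero v x))]
  exact le_antisymm_iff.symm

/-- There is an integer of valuation `exp (-1)` at `v`. -/
theorem exists_integer_uniformizer (v : FinPlace F) :
    ∃ o : 𝓞 F, v.valuation F (o : F) = exp (-1 : ℤ) := by
  obtain ⟨o, ho⟩ := v.intValuation_exists_uniformizer
  exact ⟨o, (v.valuation_of_algebraMap o).trans ho⟩

/-- A global uniformiser at `v`. -/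
def uniformizer (v : FinPlace F) : 𝓞 F := (exists_integer_uniformizer v).choose

/-- The chosen uniformiser has valuation `exp (-1)`. -/
theorem valuation_uniformizer (v : FinPlace F) :
    v.valuation F (uniformizer v : F) = exp (-1 : ℤ) := (exists_integer_uniformizer v).choose_spec

theorem uniformizer_ne_zero (v : FinPlace F) : (uniformizer v : F) ≠ 0 :=
  (Valuation.ne_zero_iff _).1 (by rw [valuation_uniformizer]; exact exp_ne_zero)

/-- The uniformiser of `F_v`. -/
def piLocal (v : FinPlace F) : (v.adicCompletion F)ˣ :=
  Units.mk0 (algebraMap F (v.adicCompletion F) (uniformizer v : F))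
    ((map_ne_zero _).2 (uniformizer_ne_zero v))

/-- The local uniformiser has valuation `exp (-1)`. -/
theorem valued_piLocal (v : FinPlace F) :
    Valued.v (piLocal v : v.adicCompletion F) = exp (-1 : ℤ) :=
  (HeightOneSpectrum.valuedAdicCompletion_eq_valuation' v _).trans (valuation_uniformizer v)

/-- The uniformiser idele at `v`. -/
def piUnit (v : FinPlace F) : (FinAdele F)ˣ := localUnit v (piLocal v)

/-- The component at `v` of `piUnit v`. -/
theorem toPlace_piUnit_same (v : FinPlace F) :
    toPlace v (piUnit v : FinAdele F) = piLocal v := toPlace_localUnit_same v _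

/-- The other components of `piUnit v` are `1`. -/
theorem toPlace_piUnit_ne {v w : FinPlace F} (h : w ≠ v) :
    toPlace w (piUnit v : FinAdele F) = 1 := toPlace_localUnit_ne h _

/-- `piUnit v` has valuation `exp (-1)` at `v`. -/
theorem placeVal_piUnit_same (v : FinPlace F) :
    placeVal v (piUnit v : FinAdele F) = exp (-1 : ℤ) := by
  rw [placeVal, toPlace_piUnit_same, valued_piLocal]

/-- `piUnit v` is a unit away from `v`. -/
theorem placeVal_piUnit_ne {v w : FinPlace F} (h : w ≠ v) :
    placeVal w (piUnit v : FinAdele F) = 1 := by
  rw [placeVal, toPlace_piUnit_ne h, map_one]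

/-- `piUnit v` is integral. -/
theorem piUnit_mem_integralAdele (v : FinPlace F) : (piUnit v : FinAdele F) ∈ integralAdele F :=
  mem_integralAdele_iff.2 fun w => by
    rcases eq_or_ne w v with rfl | h
    · rw [placeVal_piUnit_same, ← exp_zero, exp_le_exp]; omega
    · rw [placeVal_piUnit_ne h]

/-- The order at `v` of an idele. -/
def ord (v : FinPlace F) : (FinAdele F)ˣ →* Multiplicative ℤ where
  toFun x := Multiplicative.ofAdd (-log (placeVal v (x : FinAdele F)))
  map_one' := by rw [Units.val_one, placeVal_one, log_one, neg_zero]; rfl
  map_mul' x y := by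
    rw [Units.val_mul, placeVal_mul,
      log_mul (placeVal_units_ne_zero v x) (placeVal_units_ne_zero v y), neg_add, ofAdd_add]

/-- The valuation of an idele in terms of its order. -/
theorem placeVal_eq_exp_ord (v : FinPlace F) (x : (FinAdele F)ˣ) :
    placeVal v (x : FinAdele F) = exp (-(ord v x).toAdd) := by
  show _ = exp (- -log (placeVal v (x : FinAdele F)))
  rw [neg_neg, exp_log (placeVal_units_ne_zero v x)]

/-- An idele has trivial order at almost every place. -/
theorem finite_ord (x : (FinAdele F)ˣ) : {v : FinPlace F | ord v x ≠ 1}.Finite := by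
  refine (finite_placeVal_units x).subset fun v hv h => hv ?_
  show Multiplicative.ofAdd (-log (placeVal v (x : FinAdele F))) = 1
  rw [h, log_one, neg_zero]; rfl

/-- `piUnit v` has order one at `v`. -/
theorem ord_piUnit_same (v : FinPlace F) : ord v (piUnit v) = Multiplicative.ofAdd 1 := by
  show Multiplicative.ofAdd (-log (placeVal v (piUnit v : FinAdele F))) = _
  rw [placeVal_piUnit_same, log_exp, neg_neg]

theorem ord_piUnit_ne {v w : FinPlace F} (h : w ≠ v) : ord w (piUnit v) = 1 := by
  show Multiplicative.ofAdd (-log (placeVal w (piUnit v : FinAdele F))) = _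
  rw [placeVal_piUnit_ne h, log_one, neg_zero]; rfl

/-- Every idele is a finite product of uniformiser powers times a unit of `Ô`. -/
theorem exists_prod_mul_unit (x : (FinAdele F)ˣ) :
    ∃ u : (FinAdele F)ˣ, (∀ v, placeVal v (u : FinAdele F) = 1) ∧
      x = (∏ v ∈ (finite_ord x).toFinset, piUnit v ^ (ord v x).toAdd) * u := by
  classical
  set P := ∏ v ∈ (finite_ord x).toFinset, piUnit v ^ (ord v x).toAdd
  refine ⟨P⁻¹ * x, fun w => ?_, by simp⟩
  have hP : ord w P = ord w x := by
    rw [map_prod]
    rw [Finset.prod_eq_single w]
    · rw [map_zpow, ord_piUnit_same]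
      exact Multiplicative.toAdd.injective (by simp)
    · intro v _ hv
      rw [map_zpow, ord_piUnit_ne hv.symm, one_zpow]
    · intro h
      have : ord w x = 1 := by simpa using h
      simp [this]
  rw [placeVal_eq_exp_ord, map_mul, map_inv, hP, inv_mul_cancel]
  simp

/-- Residues at `v`: an integral adele agrees with a global integer modulo `v`. -/
theorem exists_integer_sub_lt (v : FinPlace F) {x : FinAdele F} (hx : x ∈ integralAdele F) :
    ∃ o : 𝓞 F, placeVal v (x - finIncl F (o : F)) < 1 := by
  obtain ⟨o, ho⟩ := exists_integer_near v (placeVal_le_one v hx) one_ne_zero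
  refine ⟨o, ?_⟩
  rw [placeVal, map_sub, toPlace_finIncl, Valuation.map_sub_swap]
  exact ho

/-- `o` lies in `v` exactly when its valuation is less than one. -/
theorem placeVal_finIncl_lt_one_iff (v : FinPlace F) (o : 𝓞 F) :
    placeVal v (finIncl F (o : F)) < 1 ↔ o ∈ v.asIdeal := by
  rw [placeVal_finIncl, RingOfIntegers.coe_eq_algebraMap, v.valuation_lt_one_iff_mem]

end Fermat.Agent.LT.Places
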